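import Mathlib

/-!
# Finite Kummer theory without fields of definition (helper32, R2 leaf (KUM), part 1)

`G` acts on a field `Ω` by ring automorphisms, `H ≤ G` fixes a primitive `p`-th root of unity `ζ`.
If `γ₁, …, γ_r, β` are nonzero with `H`-fixed `p`-th powers and every `τ ∈ H` fixing all `γ_i` fixes
`β`, then `β / c` is `H`-fixed for some `c` in the multiplicative monoid generated by the `γ_i`.
-/

set_option autoImplicit false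

namespace Fermat.Agent.S40x.Kummer

variable {Ω : Type*} [Field Ω] {G : Type*} [Group G] [MulSemiringAction G Ω]

/-- If `x ≠ 0` and `τ` fixes `x ^ p`, then `τ • x = ζ ^ k * x` for some `k`. -/
theorem smul_eq_zeta_pow_mul {p : ℕ} (hp : 0 < p) {ζ : Ω} (hζ : IsPrimitiveRoot ζ p) (τ : G)
    {x : Ω} (hx0 : x ≠ 0) (hx : τ • x ^ p = x ^ p) : ∃ k : ℕ, k < p ∧ τ • x = ζ ^ k * x := by
  have : NeZero p := ⟨hp.ne'⟩
  have h1 : (τ • x / x) ^ p = 1 := by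
    rw [div_pow, ← smul_pow', hx, div_self (pow_ne_zero _ hx0)]
  obtain ⟨k, hk, hk'⟩ := hζ.eq_pow_of_pow_eq_one h1
  refine ⟨k, hk, ?_⟩
  rw [hk', div_mul_cancel₀ _ hx0]

theorem smul_zeta_pow {ζ : Ω} (τ : G) (hτ : τ • ζ = ζ) (k : ℕ) : τ • ζ ^ k = ζ ^ k := by
  rw [smul_pow', hτ]

/-- Powers of an element acting by a root of unity multiplier. -/
theorem pow_smul_eq {ζ : Ω} (τ : G) (hτ : τ • ζ = ζ) {x : Ω} {c : ℕ} (hx : τ • x = ζ ^ c * x)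
    (k : ℕ) : (τ ^ k) • x = ζ ^ (c * k) * x := by
  induction k with
  | zero => simp
  | succ k ih =>
    rw [pow_succ', mul_smul, ih, smul_mul', smul_zeta_pow τ hτ, hx, mul_add, pow_add, mul_one]
    ring

theorem inv_smul_eq_of_smul_eq {τ : G} {x y : Ω} (h : τ • x = y) : τ⁻¹ • y = x := by
  rw [← h, inv_smul_smul]

/-- **One radical.** -/
theorem kummer_one {p : ℕ} [hp : Fact p.Prime] {ζ : Ω} (hζ : IsPrimitiveRoot ζ p)
    (H : Subgroup G) (hHζ : ∀ τ ∈ H, τ • ζ = ζ)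
    {γ β : Ω} (hγ0 : γ ≠ 0) (hβ0 : β ≠ 0)
    (hγ : ∀ τ ∈ H, τ • γ ^ p = γ ^ p) (hβ : ∀ τ ∈ H, τ • β ^ p = β ^ p)
    (h : ∀ τ ∈ H, τ • γ = γ → τ • β = β) :
    ∃ m : ℕ, ∀ τ ∈ H, τ • (β / γ ^ m) = β / γ ^ m := by
  have hp0 : 0 < p := hp.out.pos
  have : NeZero p := ⟨hp0.ne'⟩
  by_cases hall : ∀ τ ∈ H, τ • γ = γ
  · refine ⟨0, fun τ hτ => ?_⟩
    simp [h τ hτ (hall τ hτ)]
  · push Not at hall
    obtain ⟨τ0, hτ0, hne⟩ := hall
    obtain ⟨c, hc, hcγ⟩ := smul_eq_zeta_pow_mul hp0 hζ τ0 hγ0 (hγ τ0 hτ0)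
    obtain ⟨d, hd, hdβ⟩ := smul_eq_zeta_pow_mul hp0 hζ τ0 hβ0 (hβ τ0 hτ0)
    -- `ζ ^ c ≠ 1`, hence `c` is prime to `p`
    have hc1 : ζ ^ c ≠ 1 := by
      intro h1
      apply hne
      rw [hcγ, h1, one_mul]
    have hcop : Nat.Coprime c p := by
      rw [Nat.coprime_comm, hp.out.coprime_iff_not_dvd]
      intro hdvd
      exact hc1 ((hζ.pow_eq_one_iff_dvd c).mpr hdvd)
    have hprim : IsPrimitiveRoot (ζ ^ c) p := hζ.pow_of_coprime c hcop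
    -- choose `m` with `(ζ ^ c) ^ m = ζ ^ d`
    obtain ⟨m, -, hm⟩ := hprim.eq_pow_of_pow_eq_one (ξ := ζ ^ d)
      (by rw [← pow_mul, mul_comm, pow_mul, hζ.pow_eq_one, one_pow])
    refine ⟨m, fun τ hτ => ?_⟩
    obtain ⟨c', -, hc'γ⟩ := smul_eq_zeta_pow_mul hp0 hζ τ hγ0 (hγ τ hτ)
    obtain ⟨k, -, hk⟩ := hprim.eq_pow_of_pow_eq_one (ξ := ζ ^ c')
      (by rw [← pow_mul, mul_comm, pow_mul, hζ.pow_eq_one, one_pow])
    -- `σ := (τ0 ^ k)⁻¹ * τ` fixes `γ`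
    have hτ0k : (τ0 ^ k) • γ = ζ ^ (c * k) * γ := pow_smul_eq τ0 (hHζ τ0 hτ0) hcγ k
    have hτ0kβ : (τ0 ^ k) • β = ζ ^ (d * k) * β := pow_smul_eq τ0 (hHζ τ0 hτ0) hdβ k
    have hτ0kH : τ0 ^ k ∈ H := H.pow_mem hτ0 k
    have hζk : (τ0 ^ k)⁻¹ • ζ = ζ := inv_smul_eq_of_smul_eq (hHζ _ hτ0kH)
    have hck : ζ ^ (c * k) = ζ ^ c' := by rw [pow_mul, hk]
    have hσγ : ((τ0 ^ k)⁻¹ * τ) • γ = γ := by
      rw [mul_smul, hc'γ]
      apply inv_smul_eq_of_smul_eq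
      rw [hτ0k, hck]
    have hσβ := h _ (H.mul_mem (H.inv_mem hτ0kH) hτ) hσγ
    have hτβ : τ • β = ζ ^ (d * k) * β := by
      have : τ • β = (τ0 ^ k) • (((τ0 ^ k)⁻¹ * τ) • β) := by
        rw [← mul_smul, mul_inv_cancel_left]
      rw [this, hσβ, hτ0kβ]
    have hdk : ζ ^ (d * k) = ζ ^ (c' * m) := by
      calc ζ ^ (d * k) = (ζ ^ d) ^ k := pow_mul _ _ _
        _ = ((ζ ^ c) ^ m) ^ k := by rw [hm]
        _ = ((ζ ^ c) ^ k) ^ m := pow_right_comm _ _ _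
        _ = (ζ ^ c') ^ m := by rw [hk]
        _ = ζ ^ (c' * m) := (pow_mul _ _ _).symm
    rw [smul_div₀', smul_pow', hτβ, hc'γ, mul_pow, ← pow_mul, hdk]
    have hz : ζ ^ (c' * m) ≠ 0 := pow_ne_zero _ (hζ.ne_zero hp0.ne')
    field_simp

/-- `p`-th powers of elements of the monoid generated by `H`-fixed-`p`-th-power elements are
`H`-fixed. -/
theorem smul_pow_eq_of_mem_closure {p : ℕ} (H : Subgroup G) {s : Set Ω}
    (hs : ∀ γ ∈ s, ∀ τ ∈ H, τ • γ ^ p = γ ^ p) {c : Ω} (hc : c ∈ Submonoid.closure s) :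
    ∀ τ ∈ H, τ • c ^ p = c ^ p := by
  induction hc using Submonoid.closure_induction with
  | mem x hx => exact hs x hx
  | one => intro τ _; simp
  | mul x y _ _ hx hy =>
    intro τ hτ
    rw [mul_pow, smul_mul', hx τ hτ, hy τ hτ]

theorem ne_zero_of_mem_closure {s : Set Ω} (hs : ∀ γ ∈ s, γ ≠ 0) {c : Ω}
    (hc : c ∈ Submonoid.closure s) : c ≠ 0 := by
  induction hc using Submonoid.closure_induction with
  | mem x hx => exact hs x hx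
  | one => exact one_ne_zero
  | mul x y _ _ hx hy => exact mul_ne_zero hx hy

/-- **Finite Kummer lemma**, list form. -/
theorem kummer_list {p : ℕ} [hp : Fact p.Prime] {ζ : Ω} (hζ : IsPrimitiveRoot ζ p) :
    ∀ (l : List Ω) (H : Subgroup G), (∀ τ ∈ H, τ • ζ = ζ) →
      (∀ γ ∈ l, γ ≠ 0 ∧ ∀ τ ∈ H, τ • γ ^ p = γ ^ p) →
      ∀ β : Ω, β ≠ 0 → (∀ τ ∈ H, τ • β ^ p = β ^ p) →
      (∀ τ ∈ H, (∀ γ ∈ l, τ • γ = γ) → τ • β = β) →
      ∃ c : Ω, c ∈ Submonoid.closure {γ | γ ∈ l} ∧ c ≠ 0 ∧ ∀ τ ∈ H, τ • (β / c) = β / c := by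
  intro l
  induction l with
  | nil =>
    intro H _ _ β _ _ h
    refine ⟨1, Submonoid.one_mem _, one_ne_zero, fun τ hτ => ?_⟩
    rw [div_one]
    exact h τ hτ (by simp)
  | cons γ l ih =>
    intro H hHζ hl β hβ0 hβ h
    -- the subgroup of `H` fixing `γ`
    let H' : Subgroup G := H ⊓ MulAction.stabilizer G γ
    have hH' : ∀ τ, τ ∈ H' ↔ τ ∈ H ∧ τ • γ = γ := fun τ => by
      simp [H', Subgroup.mem_inf, MulAction.mem_stabilizer_iff]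
    obtain ⟨c', hc'mem, hc'0, hc'⟩ := ih H' (fun τ hτ => hHζ τ ((hH' τ).mp hτ).1)
      (fun γ' hγ' => ⟨(hl γ' (List.mem_cons_of_mem _ hγ')).1,
        fun τ hτ => (hl γ' (List.mem_cons_of_mem _ hγ')).2 τ ((hH' τ).mp hτ).1⟩)
      β hβ0 (fun τ hτ => hβ τ ((hH' τ).mp hτ).1)
      (fun τ hτ hfix => h τ ((hH' τ).mp hτ).1 (by
        intro γ' hγ'
        rcases List.mem_cons.mp hγ' with rfl | hmem
        · exact ((hH' τ).mp hτ).2
        · exact hfix γ' hmem))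
    have hγ0 : γ ≠ 0 := (hl γ (List.mem_cons_self)).1
    have hγp : ∀ τ ∈ H, τ • γ ^ p = γ ^ p := (hl γ (List.mem_cons_self)).2
    have hc'p : ∀ τ ∈ H, τ • c' ^ p = c' ^ p :=
      smul_pow_eq_of_mem_closure H
        (fun γ' hγ' => (hl γ' (List.mem_cons_of_mem _ hγ')).2) hc'mem
    have hβ'0 : β / c' ≠ 0 := div_ne_zero hβ0 hc'0
    have hβ'p : ∀ τ ∈ H, τ • (β / c') ^ p = (β / c') ^ p := by
      intro τ hτ
      rw [div_pow, smul_div₀', hβ τ hτ, hc'p τ hτ]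
    obtain ⟨m, hm⟩ := kummer_one hζ H hHζ hγ0 hβ'0 hγp hβ'p
      (fun τ hτ hτγ => hc' τ ((hH' τ).mpr ⟨hτ, hτγ⟩))
    refine ⟨c' * γ ^ m, ?_, mul_ne_zero hc'0 (pow_ne_zero _ hγ0), fun τ hτ => ?_⟩
    · refine Submonoid.mul_mem _ ?_ (Submonoid.pow_mem _ (Submonoid.subset_closure ?_) m)
      · exact Submonoid.closure_mono (fun x hx => List.mem_cons_of_mem _ hx) hc'mem
      · exact List.mem_cons_self
    · rw [← div_div]
      exact hm τ hτ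

end Fermat.Agent.S40x.Kummer
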