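import Mathlib
import Fermat.Prelude.Def_FLTPrelim_Ramification
import Fermat.Agent.S56x.Hens.FiniteLevel
import Fermat.Agent.S40x.R2.KummerFinite

/-!
# From `I°`-fixed to finitely many radicals (helper32, R2 leaf (KUM), part 2)

* `isClosed_inertiaSubgroupIn`: the inertia subgroup of a valuation subring of an algebraic
  extension is closed in the Krull topology.
* `exists_finset_of_fixed`: for a closed subgroup `I` of `Gal(K/k)`, if every `τ ∈ I` fixing a set
  `S` pointwise fixes `β`, then finitely many elements of `S` suffice.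
* `kummer_closed`: the abstract peu-ramifié Kummer statement for a closed subgroup.
-/

set_option autoImplicit false

open scoped Pointwise

namespace Fermat.Agent.S40x.Kummer

section Closed

variable {k L : Type*} [Field k] [Field L] [Algebra k L]

/-- Sets defined by a condition on the value at one element are open in the Krull topology. -/
theorem isOpen_setOf_apply_mem [Algebra.IsIntegral k L] (x : L) (s : Set L) :
    IsOpen {σ : L ≃ₐ[k] L | σ x ∈ s} := by
  rw [isOpen_iff_mem_nhds]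
  intro σ0 h0
  have hopen : IsOpen (σ0 • (MulAction.stabilizer (L ≃ₐ[k] L) x : Set (L ≃ₐ[k] L))) :=
    (stabilizer_isOpen_of_isIntegral x).smul σ0
  refine Filter.mem_of_superset (hopen.mem_nhds ⟨1, ?_, by simp⟩) ?_
  · exact (MulAction.stabilizer (L ≃ₐ[k] L) x).one_mem
  · rintro _ ⟨τ, hτ, rfl⟩
    have hτx : τ x = x := MulAction.mem_stabilizer_iff.mp hτ
    show (σ0 * τ) x ∈ s
    rw [AlgEquiv.mul_apply, hτx]
    exact h0

theorem isClosed_setOf_apply_mem [Algebra.IsIntegral k L] (x : L) (s : Set L) :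
    IsClosed {σ : L ≃ₐ[k] L | σ x ∈ s} := by
  have h := isOpen_setOf_apply_mem (k := k) x sᶜ
  have : {σ : L ≃ₐ[k] L | σ x ∈ s} = {σ : L ≃ₐ[k] L | σ x ∈ sᶜ}ᶜ := by
    ext σ
    simp
  rw [this]
  exact h.isClosed_compl

theorem mem_decompositionSubgroup_iff (A : ValuationSubring L) (σ : L ≃ₐ[k] L) :
    σ ∈ A.decompositionSubgroup k ↔ ∀ x, σ x ∈ A ↔ x ∈ A := by
  rw [ValuationSubring.decompositionSubgroup, MulAction.mem_stabilizer_iff]
  constructor
  · intro h x
    have := ValuationSubring.smul_mem_pointwise_smul_iff (g := σ) (S := A) (x := x)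
    rw [h] at this
    exact this
  · intro h
    ext y
    rw [ValuationSubring.mem_pointwise_smul_iff_inv_smul_mem, ← h (σ⁻¹ • y)]
    simp

/-- The inertia subgroup is closed in the Krull topology. -/
theorem isClosed_inertiaSubgroupIn [Algebra.IsIntegral k L] (A : ValuationSubring L) :
    IsClosed ((A.inertiaSubgroupIn k : Subgroup (L ≃ₐ[k] L)) : Set (L ≃ₐ[k] L)) := by
  have hset : ((A.inertiaSubgroupIn k : Subgroup (L ≃ₐ[k] L)) : Set (L ≃ₐ[k] L)) =
      ⋂ x : L, {σ : L ≃ₐ[k] L | σ x ∈ {y : L | (y ∈ A ↔ x ∈ A) ∧ (x ∈ A → y - x ∈ A.nonunits)}} := by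
    ext σ
    simp only [SetLike.mem_coe, Set.mem_iInter, Set.mem_setOf_eq]
    rw [Fermat.Agent.S56x.Hens.mem_inertiaSubgroupIn_iff, mem_decompositionSubgroup_iff]
    constructor
    · rintro ⟨h1, h2⟩ x
      exact ⟨h1 x, h2 x⟩
    · intro h
      exact ⟨fun x => (h x).1, fun x => (h x).2⟩
  rw [hset]
  exact isClosed_iInter fun x => isClosed_setOf_apply_mem x _

end Closed

section Infinite

variable {k K : Type*} [Field k] [Field K] [Algebra k K] [IsGalois k K]

/-- **Compactness step.** -/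
theorem exists_finset_of_fixed (I : Subgroup (K ≃ₐ[k] K))
    (hI : IsClosed (I : Set (K ≃ₐ[k] K))) (S : Set K) (β : K)
    (h : ∀ τ ∈ I, (∀ s ∈ S, τ s = s) → τ β = β) :
    ∃ T : Finset K, (T : Set K) ⊆ S ∧ ∀ τ ∈ I, (∀ s ∈ T, τ s = s) → τ β = β := by
  classical
  let L0 : IntermediateField k K := IntermediateField.fixedField I
  let E : IntermediateField k K := IntermediateField.adjoin k ((L0 : Set K) ∪ S)
  have hL0 : L0.fixingSubgroup = I :=
    InfiniteGalois.fixingSubgroup_fixedField (k := k) (K := K) ⟨I, hI⟩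
  have hβE : β ∈ E := by
    rw [← InfiniteGalois.fixedField_fixingSubgroup E, IntermediateField.mem_fixedField_iff]
    intro τ hτ
    rw [IntermediateField.mem_fixingSubgroup_iff] at hτ
    have hτI : τ ∈ I := by
      rw [← hL0, IntermediateField.mem_fixingSubgroup_iff]
      intro x hx
      exact hτ x (IntermediateField.subset_adjoin k _ (Or.inl hx))
    exact h τ hτI fun s hs => hτ s (IntermediateField.subset_adjoin k _ (Or.inr hs))
  obtain ⟨T', hT'sub, hβT'⟩ := IntermediateField.exists_finset_of_mem_adjoin hβE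
  refine ⟨T'.filter (· ∈ S), ?_, ?_⟩
  · intro t ht
    simp only [Finset.coe_filter, Set.mem_setOf_eq] at ht
    exact ht.2
  · intro τ hτ hfix
    have hle : IntermediateField.adjoin k (T' : Set K) ≤
        IntermediateField.fixedField (Subgroup.zpowers τ) := by
      rw [IntermediateField.adjoin_le_iff]
      intro t ht
      rw [SetLike.mem_coe, IntermediateField.mem_fixedField_iff]
      have htτ : τ t = t := by
        rcases hT'sub ht with h0 | hS
        · have : t ∈ L0 := h0
          rw [IntermediateField.mem_fixedField_iff] at this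
          exact this τ hτ
        · exact hfix t (by simp [Finset.mem_filter, Finset.mem_coe.mp ht, hS])
      intro g hg
      obtain ⟨n, rfl⟩ := Subgroup.mem_zpowers_iff.mp hg
      have hfixn : ∀ n : ℕ, (τ ^ n) t = t := by
        intro n
        induction n with
        | zero => simp
        | succ n ih => rw [pow_succ, AlgEquiv.mul_apply, htτ, ih]
      have hinv : ∀ n : ℕ, (τ ^ n)⁻¹ t = t := by
        intro n
        have := hfixn n
        calc (τ ^ n)⁻¹ t = (τ ^ n)⁻¹ ((τ ^ n) t) := by rw [this]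
          _ = t := by
            rw [← AlgEquiv.mul_apply, inv_mul_cancel, AlgEquiv.one_apply]
      cases n with
      | ofNat n => simpa using hfixn n
      | negSucc n => simpa [zpow_negSucc] using hinv (n + 1)
    have := hle hβT'
    rw [IntermediateField.mem_fixedField_iff] at this
    exact this τ (Subgroup.mem_zpowers τ)

/-- **Abstract peu-ramifié Kummer lemma** for a closed subgroup `I` of `Gal(K/k)`:
`U` a multiplicative submonoid of nonzero `I`-fixed elements, `ζ` a primitive `p`-th root of unity.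
If `β ≠ 0`, `β ^ p` is `I`-fixed and every `τ ∈ I` fixing all `b` with `b ^ p ∈ U` fixes `β`, then
`β ^ p = u * b ^ p` with `u ∈ U` and `b` fixed by the stabiliser of `ζ` in `I`. -/
theorem kummer_closed {p : ℕ} [hp : Fact p.Prime] {ζ : K} (hζ : IsPrimitiveRoot ζ p)
    (I : Subgroup (K ≃ₐ[k] K)) (hI : IsClosed (I : Set (K ≃ₐ[k] K)))
    (U : Submonoid K) (hU0 : (0 : K) ∉ U) (hUI : ∀ u ∈ U, ∀ τ ∈ I, τ u = u)
    {β : K} (hβ0 : β ≠ 0) (hβ : ∀ τ ∈ I, τ (β ^ p) = β ^ p)
    (h : ∀ τ ∈ I, (∀ b : K, b ^ p ∈ U → τ b = b) → τ β = β) :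
    ∃ u ∈ U, ∃ b : K, b ≠ 0 ∧ (∀ τ ∈ I, τ ζ = ζ → τ b = b) ∧ β ^ p = u * b ^ p := by
  classical
  obtain ⟨T, hTS, hT⟩ := exists_finset_of_fixed I hI {b : K | b ^ p ∈ U} β
    (fun τ hτ hfix => h τ hτ fun b hb => hfix b hb)
  -- the subgroup of `I` fixing `ζ`
  let H : Subgroup (K ≃ₐ[k] K) := I ⊓ MulAction.stabilizer (K ≃ₐ[k] K) ζ
  have hH : ∀ τ, τ ∈ H ↔ τ ∈ I ∧ τ ζ = ζ := fun τ => by
    simp [H, Subgroup.mem_inf, MulAction.mem_stabilizer_iff]
  have hp0 : p ≠ 0 := hp.out.ne_zero
  have hT0 : ∀ γ ∈ T.toList, γ ≠ 0 ∧ ∀ τ ∈ H, τ • γ ^ p = γ ^ p := by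
    intro γ hγ
    have hγU : γ ^ p ∈ U := hTS (Finset.mem_coe.mpr (Finset.mem_toList.mp hγ))
    refine ⟨?_, fun τ hτ => hUI _ hγU τ ((hH τ).mp hτ).1⟩
    rintro rfl
    rw [zero_pow hp0] at hγU
    exact hU0 hγU
  obtain ⟨c, hcmem, hc0, hc⟩ := kummer_list (G := K ≃ₐ[k] K) hζ T.toList H
    (fun τ hτ => ((hH τ).mp hτ).2) hT0 β hβ0
    (fun τ hτ => hβ τ ((hH τ).mp hτ).1)
    (fun τ hτ hfix => hT τ ((hH τ).mp hτ).1 fun s hs => hfix s (Finset.mem_toList.mpr hs))
  have hcU : c ^ p ∈ U := by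
    have hmap : ∀ x ∈ Submonoid.closure {γ | γ ∈ T.toList}, x ^ p ∈ U := by
      intro x hx
      induction hx using Submonoid.closure_induction with
      | mem x hx => exact hTS (Finset.mem_coe.mpr (Finset.mem_toList.mp hx))
      | one => simpa using U.one_mem
      | mul x y _ _ hx hy => rw [mul_pow]; exact U.mul_mem hx hy
    exact hmap c hcmem
  refine ⟨c ^ p, hcU, β / c, div_ne_zero hβ0 hc0, fun τ hτ hτζ => hc τ ((hH τ).mpr ⟨hτ, hτζ⟩), ?_⟩
  rw [div_pow, mul_div_cancel₀ _ (pow_ne_zero _ hc0)]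

end Infinite

end Fermat.Agent.S40x.Kummer
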