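import Mathlib
import Fermat.Agent.S40x.R2.KummerFinite

/-!
# Descending the valuation from `K₀(ζ_p)` to `K₀` (helper32, R2 leaf (KUM), part 3)

`I` a group of automorphisms preserving a valuation `v`, `ζ` a primitive `p`-th root of unity, `b`
fixed by the stabiliser of `ζ` in `I`.  Then the product `N` of the (fewer than `p`) conjugates of
`b` under `I` is `I`-fixed and `v N = v b ^ d` with `0 < d < p`.  Consequently, if `a` is `I`-fixed
and `v a = v b ^ p`, then `v a = v c ^ p` for an `I`-fixed `c`.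
-/

set_option autoImplicit false

namespace Fermat.Agent.S40x.Kummer

section Norm

variable {k K : Type*} [Field k] [Field K] [Algebra k K]
variable {Γ₀ : Type*} [LinearOrderedCommGroupWithZero Γ₀]

open Classical in
/-- **Orbit product.** -/
theorem exists_fixed_prod {p : ℕ} [hp : Fact p.Prime] {ζ : K} (hζ : IsPrimitiveRoot ζ p)
    (I : Subgroup (K ≃ₐ[k] K)) (v : Valuation K Γ₀) (hv : ∀ τ ∈ I, ∀ x : K, v (τ x) = v x)
    {b : K} (hb0 : b ≠ 0) (hb : ∀ τ ∈ I, τ ζ = ζ → τ b = b) :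
    ∃ N : K, N ≠ 0 ∧ (∀ τ ∈ I, τ N = N) ∧ ∃ d : ℕ, 0 < d ∧ d < p ∧ v N = v b ^ d := by
  have hp1 : 1 < p := hp.out.one_lt
  -- the finite set of `p`-th roots of unity and the orbit of `ζ` inside it
  let Z : Finset K := (Finset.range p).image (fun j => ζ ^ j)
  let O : Finset K := Z.filter (fun ξ => ∃ τ ∈ I, τ ζ = ξ)
  have hO : ∀ ξ, ξ ∈ O ↔ ∃ τ ∈ I, τ ζ = ξ := by
    intro ξ
    simp only [O, Z, Finset.mem_filter, Finset.mem_image, Finset.mem_range, and_iff_right_iff_imp]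
    rintro ⟨τ, -, rfl⟩
    have h1 : (τ ζ) ^ p = 1 := by rw [← map_pow, hζ.pow_eq_one, map_one]
    have : NeZero p := ⟨hp.out.ne_zero⟩
    obtain ⟨j, hj, hj'⟩ := hζ.eq_pow_of_pow_eq_one h1
    exact ⟨j, hj, hj'⟩
  -- representatives
  let f : K → K := fun ξ => if h : ∃ τ ∈ I, τ ζ = ξ then (Classical.choose h) b else 1
  have hf : ∀ τ ∈ I, f (τ ζ) = τ b := by
    intro τ hτ
    have h : ∃ σ ∈ I, σ ζ = τ ζ := ⟨τ, hτ, rfl⟩
    have hfd : f (τ ζ) = (Classical.choose h) b := dif_pos h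
    obtain ⟨hσI, hσζ⟩ := Classical.choose_spec h
    set σ := Classical.choose h
    rw [hfd]
    -- `τ⁻¹ * σ` fixes `ζ`, hence `b`
    have h1 : (τ⁻¹ * σ) ζ = ζ := by
      rw [AlgEquiv.mul_apply, hσζ, ← AlgEquiv.mul_apply, inv_mul_cancel, AlgEquiv.one_apply]
    have h2 := hb _ (I.mul_mem (I.inv_mem hτ) hσI) h1
    calc σ b = (τ * (τ⁻¹ * σ)) b := by rw [mul_inv_cancel_left]
      _ = τ ((τ⁻¹ * σ) b) := AlgEquiv.mul_apply _ _ _
      _ = τ b := by rw [h2]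
  refine ⟨∏ ξ ∈ O, f ξ, ?_, ?_, O.card, ?_, ?_, ?_⟩
  · rw [Finset.prod_ne_zero_iff]
    intro ξ hξ
    obtain ⟨τ, hτ, rfl⟩ := (hO ξ).mp hξ
    rw [hf τ hτ]
    exact (map_ne_zero τ).mpr hb0
  · intro t ht
    rw [map_prod]
    refine Finset.prod_bij (fun ξ _ => t ξ) ?_ ?_ ?_ ?_
    · intro ξ hξ
      obtain ⟨τ, hτ, rfl⟩ := (hO ξ).mp hξ
      exact (hO _).mpr ⟨t * τ, I.mul_mem ht hτ, rfl⟩
    · intro ξ _ ξ' _ h
      exact t.injective h
    · intro ξ' hξ'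
      obtain ⟨τ, hτ, rfl⟩ := (hO ξ').mp hξ'
      refine ⟨(t⁻¹ * τ) ζ, (hO _).mpr ⟨t⁻¹ * τ, I.mul_mem (I.inv_mem ht) hτ, rfl⟩, ?_⟩
      rw [← AlgEquiv.mul_apply, mul_inv_cancel_left]
    · intro ξ hξ
      obtain ⟨τ, hτ, rfl⟩ := (hO ξ).mp hξ
      rw [hf τ hτ, ← AlgEquiv.mul_apply, ← AlgEquiv.mul_apply, hf (t * τ) (I.mul_mem ht hτ)]
  · exact Finset.card_pos.mpr ⟨ζ, (hO ζ).mpr ⟨1, I.one_mem, rfl⟩⟩
  · -- `O ⊆ Z.erase 1`
    have hsub : O ⊆ Z.erase 1 := by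
      intro ξ hξ
      rw [Finset.mem_erase]
      refine ⟨?_, (Finset.mem_filter.mp hξ).1⟩
      obtain ⟨τ, -, rfl⟩ := (hO ξ).mp hξ
      intro h1
      have : ζ = 1 := by
        have := congrArg τ.symm h1
        simpa using this
      exact hζ.ne_one hp1 this
    have h1Z : (1 : K) ∈ Z := Finset.mem_image.mpr ⟨0, Finset.mem_range.mpr hp.out.pos, pow_zero ζ⟩
    have hZ : Z.card ≤ p := by
      have := Finset.card_image_le (s := Finset.range p) (f := fun j => ζ ^ j)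
      simpa using this
    calc O.card ≤ (Z.erase 1).card := Finset.card_le_card hsub
      _ = Z.card - 1 := Finset.card_erase_of_mem h1Z
      _ < p := by
        have : 0 < Z.card := Finset.card_pos.mpr ⟨1, h1Z⟩
        omega
  · rw [map_prod]
    rw [Finset.prod_eq_pow_card (b := v b)]
    intro ξ hξ
    obtain ⟨τ, hτ, rfl⟩ := (hO ξ).mp hξ
    rw [hf τ hτ, hv τ hτ]

/-- **Valuation corollary.**  If `a` is `I`-fixed and `v a = v b ^ p` with `b` fixed by the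
stabiliser of `ζ` in `I`, then `v a = v c ^ p` with `c` fixed by `I`. -/
theorem exists_fixed_val_pow {p : ℕ} [hp : Fact p.Prime] {ζ : K} (hζ : IsPrimitiveRoot ζ p)
    (I : Subgroup (K ≃ₐ[k] K)) (v : Valuation K Γ₀) (hv : ∀ τ ∈ I, ∀ x : K, v (τ x) = v x)
    {a b : K} (ha0 : a ≠ 0) (ha : ∀ τ ∈ I, τ a = a) (hb0 : b ≠ 0)
    (hb : ∀ τ ∈ I, τ ζ = ζ → τ b = b) (hab : v a = v b ^ p) :
    ∃ c : K, c ≠ 0 ∧ (∀ τ ∈ I, τ c = c) ∧ v a = v c ^ p := by
  obtain ⟨N, hN0, hN, d, hd0, hdp, hNd⟩ := exists_fixed_prod hζ I v hv hb0 hb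
  -- Bezout: `d * s + p * t = 1`
  have hcop : Nat.Coprime d p := by
    rw [Nat.coprime_comm, hp.out.coprime_iff_not_dvd]
    exact Nat.not_dvd_of_pos_of_lt hd0 hdp
  have hbez : (d : ℤ) * Int.gcdA d p + (p : ℤ) * Int.gcdB d p = 1 := by
    have := Int.gcd_eq_gcd_ab (d : ℤ) (p : ℤ)
    rw [Int.gcd_natCast_natCast, hcop] at this
    simpa using this.symm
  set s := Int.gcdA d p
  set t := Int.gcdB d p
  refine ⟨N ^ s * a ^ t, mul_ne_zero (zpow_ne_zero _ hN0) (zpow_ne_zero _ ha0), ?_, ?_⟩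
  · intro τ hτ
    rw [map_mul, map_zpow₀, map_zpow₀, hN τ hτ, ha τ hτ]
  · have hvb0 : v b ≠ 0 := (Valuation.ne_zero_iff v).mpr hb0
    have h1 : (v b ^ d) ^ s * (v b ^ p) ^ t = v b := by
      rw [← zpow_natCast (v b) d, ← zpow_natCast (v b) p, ← zpow_mul, ← zpow_mul,
        ← zpow_add₀ hvb0, hbez, zpow_one]
    rw [map_mul, map_zpow₀, map_zpow₀, hNd, hab, h1]

end Norm

end Fermat.Agent.S40x.Kummer
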