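import Mathlib
import Fermat.Agent.S13.InertiaVal
import Fermat.Agent.S56x.Flat.InertiaField
import Fermat.Agent.S40x.R2.KummerInfinite
import Fermat.Agent.S40x.R2.KummerNorm

/-!
# The peu-ramifié Kummer lemma at a place of `ℚ̄` (helper32, R2 leaf (KUM), part 4)

`P` a valuation subring of `Qbar = AlgebraicClosure ℚ` over the prime `p`, `I = P.inertiaSubgroupIn ℚ`,
`O₀ = inertiaInt P` (the integers of the inertia field, a DVR with uniformiser `p`).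

`unitFixed P` is `O₀ˣ` as a submonoid of `Qbar`.  The subgroup of helper14's (B-ord) is
`I° = {τ ∈ I | τ b = b whenever b ^ p ∈ O₀ˣ}`.

* `peu_kummer`: if `β ≠ 0`, `β ^ p` is `I`-fixed and `I°` fixes `β`, then `β ^ p = u * b ^ p` with
  `u ∈ O₀ˣ` and `b` fixed by every `τ ∈ I` fixing `ζ_p`.
* `peu_valuation`: then `v (β ^ p) = v c ^ p` with `c` fixed by `I`.
* `peu_dvd`: then `β ^ p = p ^ (p * k) * u` with `k : ℤ`, `u ∈ O₀ˣ`.
-/

set_option autoImplicit false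
set_option linter.unusedSectionVars false

open scoped Pointwise

namespace Fermat.Agent.S40x.Kummer

open Fermat.Agent.S56x.Flat.InertiaField

local notation "Qbar" => AlgebraicClosure ℚ
local notation "Γℚ" => (AlgebraicClosure ℚ ≃ₐ[ℚ] AlgebraicClosure ℚ)

local instance isAlgebraicQbar_kp : Algebra.IsAlgebraic ℚ (AlgebraicClosure ℚ) :=
  AlgebraicClosure.isAlgebraic ℚ
local instance isAlgClosureQbar_kp : IsAlgClosure ℚ (AlgebraicClosure ℚ) :=
  ⟨inferInstance, inferInstance⟩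
local instance normalQbar_kp : Normal ℚ (AlgebraicClosure ℚ) :=
  IsAlgClosure.normal ℚ (AlgebraicClosure ℚ)
local instance isGaloisQbar_kp : IsGalois ℚ (AlgebraicClosure ℚ) := ⟨⟩

variable (P : ValuationSubring Qbar)

theorem valuation_eq_one_of_unit {u : Qbar} (hu : u ∈ P) (hun : u ∉ P.nonunits) :
    P.valuation u = 1 := by
  have h1 : P.valuation u ≤ 1 := (P.valuation_le_one_iff u).mpr hu
  have h2 : ¬ P.valuation u < 1 := fun h => hun ((P.mem_nonunits_iff).mpr h)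
  exact le_antisymm h1 (not_lt.mp h2)

theorem unit_of_valuation_eq_one {u : Qbar} (hu : P.valuation u = 1) :
    u ∈ P ∧ u ∉ P.nonunits := by
  refine ⟨(P.valuation_le_one_iff u).mp hu.le, fun h => ?_⟩
  have := (P.mem_nonunits_iff).mp h
  rw [hu] at this
  exact lt_irrefl _ this

/-- The units of the ring of integers of the inertia field, as a submonoid of `Qbar`. -/
def unitFixed : Submonoid Qbar where
  carrier := {u | P.valuation u = 1 ∧ ∀ t ∈ P.inertiaSubgroupIn ℚ, t u = u}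
  one_mem' := ⟨map_one _, fun t _ => map_one t⟩
  mul_mem' := by
    rintro a b ⟨ha, ha'⟩ ⟨hb, hb'⟩
    exact ⟨by rw [map_mul, ha, hb, one_mul], fun t ht => by rw [map_mul, ha' t ht, hb' t ht]⟩

theorem mem_unitFixed {u : Qbar} :
    u ∈ unitFixed P ↔ P.valuation u = 1 ∧ ∀ t ∈ P.inertiaSubgroupIn ℚ, t u = u := Iff.rfl

/-- `unitFixed P` is the image of the unit group of `inertiaInt P`. -/
theorem mem_unitFixed_iff_isUnit {u : Qbar} :
    u ∈ unitFixed P ↔ ∃ c : inertiaInt P, IsUnit c ∧ (c : Qbar) = u := by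
  constructor
  · rintro ⟨hu, hfix⟩
    obtain ⟨huP, hun⟩ := unit_of_valuation_eq_one P hu
    exact ⟨⟨u, huP, hfix⟩, (isUnit_inertiaInt_iff P _).mpr hun, rfl⟩
  · rintro ⟨c, hc, rfl⟩
    exact ⟨valuation_eq_one_of_unit P c.2.1 ((isUnit_inertiaInt_iff P c).mp hc), c.2.2⟩

theorem zero_notMem_unitFixed : (0 : Qbar) ∉ unitFixed P := by
  rintro ⟨h, -⟩
  rw [map_zero] at h
  exact zero_ne_one h

/-- **Peu-ramifié Kummer lemma.** -/
theorem peu_kummer {p : ℕ} [hp : Fact p.Prime] {ζ : Qbar} (hζ : IsPrimitiveRoot ζ p)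
    {β : Qbar} (hβ0 : β ≠ 0) (hβ : ∀ τ ∈ P.inertiaSubgroupIn ℚ, τ (β ^ p) = β ^ p)
    (h : ∀ τ ∈ P.inertiaSubgroupIn ℚ, (∀ b : Qbar, b ^ p ∈ unitFixed P → τ b = b) → τ β = β) :
    ∃ u ∈ unitFixed P, ∃ b : Qbar, b ≠ 0 ∧
      (∀ τ ∈ P.inertiaSubgroupIn ℚ, τ ζ = ζ → τ b = b) ∧ β ^ p = u * b ^ p :=
  kummer_closed hζ (P.inertiaSubgroupIn ℚ) (isClosed_inertiaSubgroupIn P) (unitFixed P)
    (zero_notMem_unitFixed P) (fun _ hu τ hτ => hu.2 τ hτ) hβ0 hβ h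

/-- **Valuation form.** -/
theorem peu_valuation {p : ℕ} [hp : Fact p.Prime]
    {β : Qbar} (hβ0 : β ≠ 0) (hβ : ∀ τ ∈ P.inertiaSubgroupIn ℚ, τ (β ^ p) = β ^ p)
    (h : ∀ τ ∈ P.inertiaSubgroupIn ℚ, (∀ b : Qbar, b ^ p ∈ unitFixed P → τ b = b) → τ β = β) :
    ∃ c : Qbar, c ≠ 0 ∧ (∀ τ ∈ P.inertiaSubgroupIn ℚ, τ c = c) ∧
      P.valuation (β ^ p) = P.valuation c ^ p := by
  have : NeZero p := ⟨hp.out.ne_zero⟩
  obtain ⟨ζ, hζ⟩ := HasEnoughRootsOfUnity.exists_primitiveRoot Qbar p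
  obtain ⟨u, hu, b, hb0, hb, hab⟩ := peu_kummer P hζ hβ0 hβ h
  refine exists_fixed_val_pow hζ (P.inertiaSubgroupIn ℚ) P.valuation
    (fun τ hτ x => Fermat.Agent.S13.InertiaVal.inertia_valuation_eq hτ x)
    (pow_ne_zero _ hβ0) hβ hb0 hb ?_
  rw [hab, map_mul, hu.1, one_mul, map_pow]

variable {p : ℕ} (hp : p.Prime) (hP : P.LiesOverPrime p)
include hp hP

/-- Every nonzero element of `inertiaInt P` is a power of `p` times a unit. -/
theorem inertiaInt_eq_pow_mul_unit (c : inertiaInt P) (hc : c ≠ 0) :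
    ∃ n : ℕ, ∃ u ∈ unitFixed P, (c : Qbar) = (p : Qbar) ^ n * u := by
  classical
  have hex : ∃ n : ℕ, ¬ (p : inertiaInt P) ^ (n + 1) ∣ c := by
    by_contra hcon
    push Not at hcon
    apply hc
    apply eq_zero_of_forall_pow_dvd P hp hP
    intro n
    rcases n with _ | n
    · simp
    · exact hcon n
  let n := Nat.find hex
  have hn : ¬ (p : inertiaInt P) ^ (n + 1) ∣ c := Nat.find_spec hex
  have hdvd : (p : inertiaInt P) ^ n ∣ c := by
    rcases Nat.eq_zero_or_pos n with h0 | hpos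
    · rw [h0]; simp
    · have := Nat.find_min hex (m := n - 1) (by omega)
      push Not at this
      have hn1 : n - 1 + 1 = n := by omega
      rwa [hn1] at this
  obtain ⟨y, hy⟩ := hdvd
  have hyu : (y : Qbar) ∉ P.nonunits := by
    intro hnu
    obtain ⟨z, hz⟩ := natCast_dvd_of_mem_nonunits P hp hP y hnu
    apply hn
    exact ⟨z, by rw [hy, hz, pow_succ, mul_assoc]⟩
  refine ⟨n, (y : Qbar), ⟨valuation_eq_one_of_unit P y.2.1 hyu, y.2.2⟩, ?_⟩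
  have := congrArg (fun z : inertiaInt P => (z : Qbar)) hy
  simpa using this

/-- Every nonzero inertia-fixed element of `Qbar` is an integral power of `p` times a unit of the
integers of the inertia field. -/
theorem fixed_eq_zpow_mul_unit {c : Qbar} (hc0 : c ≠ 0)
    (hc : ∀ t ∈ P.inertiaSubgroupIn ℚ, t c = c) :
    ∃ k : ℤ, ∃ u ∈ unitFixed P, c = (p : Qbar) ^ k * u := by
  have hp0 : (p : Qbar) ≠ 0 := natCast_ne_zero_Qbar P hp hP
  rcases P.mem_or_inv_mem c with hmem | hmem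
  · obtain ⟨n, u, hu, hcu⟩ := inertiaInt_eq_pow_mul_unit P hp hP ⟨c, hmem, hc⟩
      (fun h0 => hc0 (congrArg (fun z : inertiaInt P => (z : Qbar)) h0))
    exact ⟨n, u, hu, by rw [zpow_natCast]; exact hcu⟩
  · have hfix : ∀ t ∈ P.inertiaSubgroupIn ℚ, t c⁻¹ = c⁻¹ := by
      intro t ht
      rw [map_inv₀, hc t ht]
    obtain ⟨n, u, hu, hcu⟩ := inertiaInt_eq_pow_mul_unit P hp hP ⟨c⁻¹, hmem, hfix⟩
      (fun h0 => inv_ne_zero hc0 (congrArg (fun z : inertiaInt P => (z : Qbar)) h0))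
    have hu0 : u ≠ 0 := fun h0 => zero_notMem_unitFixed P (h0 ▸ hu)
    refine ⟨-(n : ℤ), u⁻¹, ⟨by rw [map_inv₀, hu.1, inv_one],
      fun t ht => by rw [map_inv₀, hu.2 t ht]⟩, ?_⟩
    have hcu' : c⁻¹ = (p : Qbar) ^ n * u := hcu
    rw [zpow_neg, zpow_natCast, ← mul_inv, ← hcu', inv_inv]

/-- An inertia-fixed `a ≠ 0` whose valuation is the `p`-th power of the valuation of an
inertia-fixed element is `p ^ (p * k)` times a unit of the integers of the inertia field. -/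
theorem eq_zpow_mul_unit_of_valuation_pow {a c : Qbar} (_ha0 : a ≠ 0)
    (ha : ∀ τ ∈ P.inertiaSubgroupIn ℚ, τ a = a) (hc0 : c ≠ 0)
    (hc : ∀ τ ∈ P.inertiaSubgroupIn ℚ, τ c = c) (hval : P.valuation a = P.valuation c ^ p) :
    ∃ k : ℤ, ∃ u ∈ unitFixed P, a = (p : Qbar) ^ ((p : ℤ) * k) * u := by
  obtain ⟨k, w, hw, hcw⟩ := fixed_eq_zpow_mul_unit P hp hP hc0 hc
  have hcp0 : c ^ p ≠ 0 := pow_ne_zero _ hc0
  refine ⟨k, w ^ p * (a / c ^ p), (unitFixed P).mul_mem ((unitFixed P).pow_mem hw p) ⟨?_, ?_⟩, ?_⟩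
  · rw [map_div₀, hval, map_pow, div_self]
    exact pow_ne_zero _ ((Valuation.ne_zero_iff _).mpr hc0)
  · intro t ht
    rw [map_div₀, ha t ht, map_pow, hc t ht]
  · have h1 : c ^ p = (p : Qbar) ^ ((p : ℤ) * k) * w ^ p := by
      rw [hcw, mul_pow, ← zpow_natCast ((p : Qbar) ^ k) p, ← zpow_mul, mul_comm k]
    rw [← mul_assoc, ← h1, mul_div_cancel₀ _ hcp0]

/-- **Divisibility form.**  If `β ≠ 0`, `β ^ p` is fixed by inertia and `I°` fixes `β`, then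
`β ^ p = p ^ (p * k) * u` with `u` a unit of the integers of the inertia field: the `p`-adic
valuation of the Kummer class is divisible by `p`. -/
theorem peu_dvd
    {β : Qbar} (hβ0 : β ≠ 0) (hβ : ∀ τ ∈ P.inertiaSubgroupIn ℚ, τ (β ^ p) = β ^ p)
    (h : ∀ τ ∈ P.inertiaSubgroupIn ℚ, (∀ b : Qbar, b ^ p ∈ unitFixed P → τ b = b) → τ β = β) :
    ∃ k : ℤ, ∃ u ∈ unitFixed P, β ^ p = (p : Qbar) ^ ((p : ℤ) * k) * u := by
  have : Fact p.Prime := ⟨hp⟩
  obtain ⟨c, hc0, hc, hval⟩ := peu_valuation P hβ0 hβ h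
  exact eq_zpow_mul_unit_of_valuation_pow P hp hP (pow_ne_zero _ hβ0) hβ hc0 hc hval

/-- **Kummer glue (consumer form of blueprint block B0).**  `a ≠ 0` inertia-fixed, `w` a unit of
the integers of the inertia field, and `c` fixed by every inertia element fixing `ζ_p`, with
`c ^ p = a * w`.  Then `a = p ^ (p * k) * u`, `u` a unit: `p ∣ v_p(a)`.
(Use with `c = β * b`, `β ^ p = a`, `b ^ p = w`, `τ β / β = ζ ^ (-j τ)`, `τ b / b = ζ ^ (j τ)`.) -/
theorem kummer_glue {ζ : Qbar} (hζ : IsPrimitiveRoot ζ p) {a c w : Qbar} (ha0 : a ≠ 0)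
    (ha : ∀ τ ∈ P.inertiaSubgroupIn ℚ, τ a = a) (hw : w ∈ unitFixed P)
    (hc : ∀ τ ∈ P.inertiaSubgroupIn ℚ, τ ζ = ζ → τ c = c) (hcp : c ^ p = a * w) :
    ∃ k : ℤ, ∃ u ∈ unitFixed P, a = (p : Qbar) ^ ((p : ℤ) * k) * u := by
  have : Fact p.Prime := ⟨hp⟩
  have hw0 : w ≠ 0 := fun h0 => zero_notMem_unitFixed P (h0 ▸ hw)
  have hc0 : c ≠ 0 := by
    intro h0
    rw [h0, zero_pow hp.ne_zero] at hcp
    exact mul_ne_zero ha0 hw0 hcp.symm
  have haw : ∀ τ ∈ P.inertiaSubgroupIn ℚ, τ (a * w) = a * w := fun τ hτ => by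
    rw [map_mul, ha τ hτ, hw.2 τ hτ]
  obtain ⟨c', hc'0, hc', hval⟩ := exists_fixed_val_pow hζ (P.inertiaSubgroupIn ℚ) P.valuation
    (fun τ hτ x => Fermat.Agent.S13.InertiaVal.inertia_valuation_eq hτ x)
    (mul_ne_zero ha0 hw0) haw hc0 hc (by rw [← hcp, map_pow])
  refine eq_zpow_mul_unit_of_valuation_pow P hp hP ha0 ha hc'0 hc' ?_
  rw [← hval, map_mul, hw.1, mul_one]

/-- Character form of `kummer_glue`. -/
theorem kummer_glue_char {ζ : Qbar} (hζ : IsPrimitiveRoot ζ p) {a β b : Qbar} (ha0 : a ≠ 0)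
    (ha : ∀ τ ∈ P.inertiaSubgroupIn ℚ, τ a = a) (hβ : β ^ p = a) (hb : b ^ p ∈ unitFixed P)
    (j : (AlgebraicClosure ℚ ≃ₐ[ℚ] AlgebraicClosure ℚ) → ℕ)
    (hjβ : ∀ τ ∈ P.inertiaSubgroupIn ℚ, τ ζ = ζ → τ β * ζ ^ j τ = β)
    (hjb : ∀ τ ∈ P.inertiaSubgroupIn ℚ, τ ζ = ζ → τ b = ζ ^ j τ * b) :
    ∃ k : ℤ, ∃ u ∈ unitFixed P, a = (p : Qbar) ^ ((p : ℤ) * k) * u := by
  refine kummer_glue P hp hP hζ ha0 ha hb (c := β * b) (fun τ hτ hτζ => ?_) (by rw [mul_pow, hβ])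
  rw [map_mul, hjb τ hτ hτζ, ← mul_assoc, hjβ τ hτ hτζ]

end Fermat.Agent.S40x.Kummer
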