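/-
P-S44, block C3, leaf C3-KF (helper16): Kummer functions in the function field `F`.

Abstract part (any function field `F / K` in the Prelude vocabulary `Place`, `Pic0`, with the
hypothesis `hconst` : a function with trivial divisor is a constant):
* `exists_const_mul_pow_of_zero` : a Kummer function of the trivial class is a constant times an
  `m`-th power;
* `exists_of_same_class` : two Kummer functions of the same class differ by a constant times an
  `m`-th power;
* `smul_of_smul_sub` (KF1) : `g x - x = j l0`  ==>  `g u = c * u * u0 ^ j * k ^ m`;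
* `smul_of_smul_eq` (KF2) : `g l0 = a l0`  ==>  `g u0 = c * u0 ^ a * k ^ m`.

Modular part (`F = modularFunctionFieldBar N` inside `LaurentSeries Qbar`, Galois acting by
`coeffMap`): `coeffMap_kummer` (KF1), `coeffMap_kummer_self` (KF2), `exists_kummer` (existence for
torsion classes), and the open-stabiliser statements (KF4) `exists_normal_finiteIndex_fixing`,
`finite_range_coeffMap`.  (KF3) `p ∣ ord_v f_x` is the landed `IsKummerRep.dvd_ord`.
-/
import Fermat.Agent.Gateway.Kummer.Basic
import Fermat.Agent.Gateway.Kummer.GalLevel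
import Fermat.Agent.Gateway.BaseChange.ModularConst
import Fermat.Agent.Gateway.S31.FromExport
import Fermat.Agent.Lib.FrobeniusExists

set_option autoImplicit false
set_option linter.style.haveILetI false

noncomputable section

namespace Fermat.Agent.S40x.R2.KF

open AlgebraicCurve ModularCurve Fermat.Agent.Gateway.Kummer

/-! ### Abstract part -/

section Abstract

variable {K F : Type*} [Field K] [Field F] [Algebra K F]

/-- a Kummer function of the trivial class is a constant times an `m`-th power -/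
theorem exists_const_mul_pow_of_zero
    (hconst : ∀ g : F, (∀ v : Place K F, v.ord g = 0) → ∃ c : K, g = algebraMap K F c)
    {m : ℕ} {u : F} (hu : IsKummerRep m (0 : Pic0 K F) u) :
    ∃ (c : K) (w : F), c ≠ 0 ∧ w ≠ 0 ∧ u = algebraMap K F c * w ^ m := by
  obtain ⟨hu0, D, hD0, hD⟩ := hu
  rw [mk_eq_zero_iff] at hD0
  obtain ⟨w, hw0, hw⟩ := hD0
  have hwm : w ^ m ≠ 0 := pow_ne_zero _ hw0
  obtain ⟨c, hc⟩ := hconst (u / w ^ m) (fun v => by
    rw [div_eq_mul_inv, v.ord_mul hu0 (inv_ne_zero hwm), v.ord_inv, ← zpow_natCast, v.ord_zpow,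
      ← hD v, ← hw v]
    ring)
  have hc0 : c ≠ 0 := by
    rintro rfl
    rw [map_zero] at hc
    exact div_ne_zero hu0 hwm hc
  refine ⟨c, w, hc0, hw0, ?_⟩
  rw [← hc]
  field_simp

/-- two Kummer functions of the same class differ by a constant times an `m`-th power -/
theorem exists_of_same_class
    (hconst : ∀ g : F, (∀ v : Place K F, v.ord g = 0) → ∃ c : K, g = algebraMap K F c)
    {m : ℕ} {x : Pic0 K F} {u u' : F} (hu : IsKummerRep m x u) (hu' : IsKummerRep m x u') :
    ∃ (c : K) (k : F), c ≠ 0 ∧ k ≠ 0 ∧ u' = algebraMap K F c * u * k ^ m := by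
  have h := hu'.div hu
  rw [sub_self] at h
  obtain ⟨c, k, hc0, hk0, hck⟩ := exists_const_mul_pow_of_zero hconst h
  refine ⟨c, k, hc0, hk0, ?_⟩
  have hu0 := hu.ne_zero
  rw [div_eq_iff hu0] at hck
  rw [hck]
  ring

/-- (KF1) if `g x - x = j l0` then `g u = c * u * u0 ^ j * k ^ m` for Kummer functions `u` of `x`
and `u0` of `l0`. -/
theorem smul_of_smul_sub
    (hconst : ∀ g : F, (∀ v : Place K F, v.ord g = 0) → ∃ c : K, g = algebraMap K F c)
    (g : SemilinearAut K F) {m : ℕ} {x l0 : Pic0 K F} {u u0 : F}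
    (hu : IsKummerRep m x u) (hu0 : IsKummerRep m l0 u0) {j : ℕ} (h : g • x - x = j • l0) :
    ∃ (c : K) (k : F), c ≠ 0 ∧ k ≠ 0 ∧ g • u = algebraMap K F c * u * u0 ^ j * k ^ m := by
  have h1 : IsKummerRep m (g • x) (g • u) := hu.smul g
  have h2 : IsKummerRep m (g • x) (u * u0 ^ j) := by
    have h3 : g • x = x + j • l0 := by rw [← h]; abel
    rw [h3]
    exact hu.mul (hu0.pow j)
  obtain ⟨c, k, hc0, hk0, hck⟩ := exists_of_same_class hconst h2 h1
  exact ⟨c, k, hc0, hk0, by rw [hck]; ring⟩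

/-- (KF2) if `g l0 = a l0` then `g u0 = c * u0 ^ a * k ^ m`. -/
theorem smul_of_smul_eq
    (hconst : ∀ g : F, (∀ v : Place K F, v.ord g = 0) → ∃ c : K, g = algebraMap K F c)
    (g : SemilinearAut K F) {m : ℕ} {l0 : Pic0 K F} {u0 : F}
    (hu0 : IsKummerRep m l0 u0) {a : ℕ} (h : g • l0 = a • l0) :
    ∃ (c : K) (k : F), c ≠ 0 ∧ k ≠ 0 ∧ g • u0 = algebraMap K F c * u0 ^ a * k ^ m := by
  have h1 : IsKummerRep m (g • l0) (g • u0) := hu0.smul g
  have h2 : IsKummerRep m (g • l0) (u0 ^ a) := by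
    rw [h]
    exact hu0.pow a
  exact exists_of_same_class hconst h2 h1

end Abstract

/-! ### The modular function field over `ℚ̄` -/

section Modular

local notation "Qb" => AlgebraicClosure ℚ
local notation "Γℚ" => (AlgebraicClosure ℚ ≃ₐ[ℚ] AlgebraicClosure ℚ)

open Fermat.Agent.Gateway.S31Red

variable (N : ℕ) [NeZero N]

/-- `hconst` for `F = modularFunctionFieldBar N` -/
theorem hconst_bar (g : modularFunctionFieldBar N)
    (h : ∀ v : Place Qb (modularFunctionFieldBar N), v.ord g = 0) :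
    ∃ c : Qb, g = algebraMap Qb (modularFunctionFieldBar N) c := by
  by_cases hg : g = 0
  · exact ⟨0, by rw [hg, map_zero]⟩
  · exact Fermat.Agent.Gateway.BaseChange.ModularConst.hconst_FL Qb N g hg h

variable {N}

omit [NeZero N] in
/-- existence of Kummer functions for torsion classes -/
theorem exists_kummer {m : ℕ} (x : JTors N m) :
    ∃ u : modularFunctionFieldBar N, IsKummerRep m (x : JZero N) u :=
  exists_isKummerRep (Pic0.mem_torsion.mp x.2)

/-- (KF1), modular form: if `σ x - x = j l0` then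
`coeffMap σ u = c * u * u0 ^ j * k ^ m` in `LaurentSeries ℚ̄`, with `k ∈ F`. -/
theorem coeffMap_kummer {m : ℕ} {x l0 : JZero N} {u u0 : modularFunctionFieldBar N}
    (hu : IsKummerRep m x u) (hu0 : IsKummerRep m l0 u0) (σ : Γℚ) {j : ℕ}
    (h : σ • x - x = j • l0) :
    ∃ (c : Qb) (k : modularFunctionFieldBar N), c ≠ 0 ∧ k ≠ 0 ∧
      coeffMap (σ : Qb →+* Qb) (u : LaurentSeries Qb) =
        algebraMap Qb (LaurentSeries Qb) c * u * (u0 : LaurentSeries Qb) ^ j *
          (k : LaurentSeries Qb) ^ m := by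
  obtain ⟨c, k, hc0, hk0, hck⟩ :=
    smul_of_smul_sub (hconst_bar N) (arithmeticGalois (modularFunctionFieldFull N) σ) hu hu0
      (by rw [← galois_smul_pic0_def]; exact h)
  refine ⟨c, k, hc0, hk0, ?_⟩
  have := congrArg (fun y : modularFunctionFieldBar N => (y : LaurentSeries Qb)) hck
  simpa [coe_arithmeticGalois_smul] using this

/-- (KF2), modular form: if `σ l0 = a l0` then `coeffMap σ u0 = c * u0 ^ a * k ^ m`. -/
theorem coeffMap_kummer_self {m : ℕ} {l0 : JZero N} {u0 : modularFunctionFieldBar N}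
    (hu0 : IsKummerRep m l0 u0) (σ : Γℚ) {a : ℕ} (h : σ • l0 = a • l0) :
    ∃ (c : Qb) (k : modularFunctionFieldBar N), c ≠ 0 ∧ k ≠ 0 ∧
      coeffMap (σ : Qb →+* Qb) (u0 : LaurentSeries Qb) =
        algebraMap Qb (LaurentSeries Qb) c * (u0 : LaurentSeries Qb) ^ a *
          (k : LaurentSeries Qb) ^ m := by
  obtain ⟨c, k, hc0, hk0, hck⟩ :=
    smul_of_smul_eq (hconst_bar N) (arithmeticGalois (modularFunctionFieldFull N) σ) hu0
      (by rw [← galois_smul_pic0_def]; exact h)
  refine ⟨c, k, hc0, hk0, ?_⟩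
  have := congrArg (fun y : modularFunctionFieldBar N => (y : LaurentSeries Qb)) hck
  simpa [coe_arithmeticGalois_smul] using this

omit [NeZero N] in
/-- (KF4) every element of `F` is fixed by a NORMAL subgroup of FINITE INDEX of the absolute
Galois group. -/
theorem exists_normal_finiteIndex_fixing {x : LaurentSeries Qb}
    (hx : x ∈ modularFunctionFieldBar N) :
    ∃ G' : Subgroup Γℚ, G'.Normal ∧ G'.FiniteIndex ∧
      ∀ σ ∈ G', coeffMap ((σ : Γℚ) : Qb →+* Qb) x = x := by
  haveI : Algebra.IsAlgebraic ℚ Qb := AlgebraicClosure.isAlgebraic ℚ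
  haveI : IsGalois ℚ Qb := Fermat.Agent.Lib.isGalois_algebraicClosure_rat
  obtain ⟨K, hK, hfix⟩ := exists_finiteDimensional_fixing (modularFunctionFieldFull N) hx
  haveI := hK
  set K' : IntermediateField ℚ Qb := IntermediateField.normalClosure ℚ K Qb with hK'
  haveI : FiniteDimensional ℚ K' := normalClosure.is_finiteDimensional ℚ K Qb
  haveI : Normal ℚ K' := normalClosure.normal ℚ K Qb
  haveI : IsGalois ℚ K' := ⟨⟩
  refine ⟨K'.fixingSubgroup, inferInstance, ?_, fun σ hσ => hfix σ (fun a ha => ?_)⟩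
  · refine ⟨?_⟩
    rw [← IntermediateField.finrank_eq_fixingSubgroup_index]
    exact Module.finrank_pos.ne'
  · have hle : K ≤ K' := IntermediateField.le_normalClosure K
    exact (IntermediateField.mem_fixingSubgroup_iff K' σ).1 hσ a (hle ha)

omit [NeZero N] in
/-- (KF4) the Galois orbit of an element of `F` is finite. -/
theorem finite_range_coeffMap {x : LaurentSeries Qb} (hx : x ∈ modularFunctionFieldBar N) :
    (Set.range fun σ : Γℚ => coeffMap ((σ : Γℚ) : Qb →+* Qb) x).Finite := by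
  classical
  obtain ⟨G', _, hfin, hfix⟩ := exists_normal_finiteIndex_fixing hx
  haveI := hfin
  haveI : Finite (Γℚ ⧸ G') := Subgroup.finite_quotient_of_finiteIndex
  -- the map factors through the finite quotient
  have hfac : ∀ σ τ : Γℚ, (QuotientGroup.mk σ : Γℚ ⧸ G') = QuotientGroup.mk τ →
      coeffMap ((σ : Γℚ) : Qb →+* Qb) x = coeffMap ((τ : Γℚ) : Qb →+* Qb) x := by
    intro σ τ h
    have h1 : σ⁻¹ * τ ∈ G' := QuotientGroup.eq.mp h
    have h2 := hfix _ h1
    have h3 : coeffMap ((σ : Γℚ) : Qb →+* Qb) (coeffMap (((σ⁻¹ * τ : Γℚ)) : Qb →+* Qb) x)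
        = coeffMap ((τ : Γℚ) : Qb →+* Qb) x := by
      rw [coeffMap_coeffMap]
      refine coeffMap_congr (RingHom.ext fun a => ?_) x
      show σ ((σ⁻¹ * τ) a) = τ a
      rw [AlgEquiv.mul_apply]
      exact σ.apply_symm_apply (τ a)
    rw [← h3, h2]
  let f : (Γℚ ⧸ G') → LaurentSeries Qb := fun q =>
    coeffMap ((q.out : Γℚ) : Qb →+* Qb) x
  refine (Set.finite_range f).subset ?_
  rintro _ ⟨σ, rfl⟩
  exact ⟨QuotientGroup.mk σ, hfac _ _ (QuotientGroup.out_eq' _)⟩

end Modular

end Fermat.Agent.S40x.R2.KF
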