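/-
helper30 (P-S44, block C3, leaf B5a "TRANSITIVITY"; Mathlib only).

`F' / F0` a field extension, `G` a finite group acting on `F'` with `F'^G = F0`
(`Algebra.IsInvariant F0 F' G`; e.g. `G = Gal(F'/F0)` for a finite Galois extension),
`O` a valuation subring of `F0`.

* `exists_smul_eq` (T1): two valuation subrings `W₁, W₂` of `F'` lying over `O`
  (`∀ e, algebraMap F0 F' e ∈ Wᵢ ↔ e ∈ O`, i.e. the landed `FundEq.LiesOver O Wᵢ` unfolded)
  are conjugate: `∃ g : G, W₂ = g • W₁`.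
* `exists_algEquiv_comap_eq`: the same for `G = Gal(F'/F0)`, in `comap` form.
* `IsOrd`: a `ℤ`-valued order function of a valuation subring (a hom on nonzero elements whose
  non-negative part is the valuation subring); `IsOrd.unique`: two order functions of the same
  valuation subring which agree on one element of nonzero order are equal.
* `ord_sub_dvd` (T2): `w₁, w₂` order functions of `W₁, W₂` over `O`, both restricting to the same
  non-trivial `v` on `F0`; `f ≠ 0` with `g • f = a * h ^ p * f`, `p ∣ v a`, for every `g`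
  (`a ∈ F0`, `h ∈ F'` depending on `g`): then `p ∣ w₂ f - w₁ f`.
* `ord_sub_dvd_of_generator`: the hypothesis on all `g` follows from the hypothesis on a
  generator `σ`.
-/
import Mathlib

set_option autoImplicit false

namespace Fermat.Agent.S40x.R2.Transitive

open scoped Pointwise

section Hull

variable {F0 F' : Type*} [Field F0] [Field F'] [Algebra F0 F']
variable (O : ValuationSubring F0)

/-- the intersection of all valuation subrings of `F'` containing the image of `O`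
(= the integral closure of `O` in `F'`, which we do not need to know) -/
def hull : Subring F' :=
  ⨅ V : {V : ValuationSubring F' // ∀ e ∈ O, algebraMap F0 F' e ∈ V}, V.1.toSubring

variable {O}

theorem mem_hull_iff {x : F'} :
    x ∈ hull (F' := F') O ↔
      ∀ V : ValuationSubring F', (∀ e ∈ O, algebraMap F0 F' e ∈ V) → x ∈ V := by
  unfold hull
  rw [Subring.mem_iInf]
  constructor
  · intro h V hV
    exact h ⟨V, hV⟩
  · intro h V
    exact h V.1 V.2

theorem algebraMap_mem_hull {e : F0} (he : e ∈ O) : algebraMap F0 F' e ∈ hull (F' := F') O :=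
  mem_hull_iff.mpr fun _ hV => hV e he

theorem hull_le {W : ValuationSubring F'} (hW : ∀ e ∈ O, algebraMap F0 F' e ∈ W) :
    hull (F' := F') O ≤ W.toSubring := fun _ hx => mem_hull_iff.mp hx W hW

end Hull

/-- the polynomial identity behind `exists_fraction` -/
theorem split_identity {R : Type*} [Field R] (c : ℕ → R) {x : R} (hx : x ≠ 0) {n k : ℕ}
    (hk : k ≤ n) (h0 : ∑ j ∈ Finset.range (n + 1), c j * x ^ j = 0) :
    x * (∑ i ∈ Finset.range (n + 1 - k), c (k + i) * x ^ i) =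
      -∑ j ∈ Finset.range k, c j * (x⁻¹) ^ (k - 1 - j) := by
  apply mul_left_cancel₀ (pow_ne_zero k hx)
  have h1 : ∑ j ∈ Finset.range k, c j * x ^ j + ∑ j ∈ Finset.Ico k (n + 1), c j * x ^ j = 0 := by
    rw [Finset.sum_range_add_sum_Ico _ (by omega : k ≤ n + 1)]
    exact h0
  have h2 : ∑ j ∈ Finset.Ico k (n + 1), c j * x ^ j =
      x ^ k * ∑ i ∈ Finset.range (n + 1 - k), c (k + i) * x ^ i := by
    rw [Finset.sum_Ico_eq_sum_range, Finset.mul_sum]
    refine Finset.sum_congr rfl fun i _ => ?_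
    rw [pow_add]
    ring
  have h3 : x ^ k * -∑ j ∈ Finset.range k, c j * (x⁻¹) ^ (k - 1 - j) =
      -(x * ∑ j ∈ Finset.range k, c j * x ^ j) := by
    rw [mul_neg, Finset.mul_sum, Finset.mul_sum]
    congr 1
    refine Finset.sum_congr rfl fun j hj => ?_
    rw [Finset.mem_range] at hj
    have h4 : x ^ k = x ^ (j + 1) * x ^ (k - 1 - j) := by
      rw [← pow_add]
      congr 1
      omega
    rw [h4, inv_pow]
    have h5 : x ^ (k - 1 - j) ≠ 0 := pow_ne_zero _ hx
    field_simp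
    ring
  rw [h3]
  rw [h2] at h1
  linear_combination x * h1

section Fraction

variable {F0 F' : Type*} [Field F0] [Field F'] [Algebra F0 F']
variable {O : ValuationSubring F0}

/-- nonunits of `O` correspond to nonunits of `W` when `W` lies over `O` -/
theorem algebraMap_mem_nonunits_iff {W : ValuationSubring F'}
    (hW : ∀ e : F0, algebraMap F0 F' e ∈ W ↔ e ∈ O) {e : F0} :
    algebraMap F0 F' e ∈ W.nonunits ↔ e ∈ O.nonunits := by
  rw [ValuationSubring.mem_nonunits_iff_or, ValuationSubring.mem_nonunits_iff_or, ← map_inv₀, hW,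
    map_eq_zero]

/-- every element of a valuation subring `W` over `O` is a fraction `b / y` of elements of the
hull with `y` a unit of `W` -/
theorem exists_fraction [Algebra.IsAlgebraic F0 F'] {W : ValuationSubring F'}
    (hW : ∀ e : F0, algebraMap F0 F' e ∈ W ↔ e ∈ O) {x : F'} (hx : x ∈ W) :
    ∃ y b : F', y ∈ hull (F' := F') O ∧ b ∈ hull (F' := F') O ∧ y ∉ W.nonunits ∧ x * y = b := by
  by_cases hx0 : x = 0
  · refine ⟨1, 0, one_mem _, zero_mem _, fun h => ?_, by rw [hx0, zero_mul]⟩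
    rw [ValuationSubring.mem_nonunits_iff, map_one] at h
    exact lt_irrefl _ h
  obtain ⟨p, hp0, hpx⟩ := Algebra.IsAlgebraic.isAlgebraic (R := F0) x
  -- the dominant coefficient
  have hne : p.support.Nonempty := Polynomial.support_nonempty.mpr hp0
  obtain ⟨j0, hj0, hmax⟩ :=
    Finset.exists_max_image p.support (fun j => O.valuation (p.coeff j)) hne
  set c := p.coeff j0 with hc
  have hc0 : c ≠ 0 := Polynomial.mem_support_iff.mp hj0
  have hvc0 : 0 < O.valuation c := zero_lt_iff.mpr ((Valuation.ne_zero_iff _).mpr hc0)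
  set a : ℕ → F0 := fun j => p.coeff j / c with ha
  have haO : ∀ j, a j ∈ O := by
    intro j
    rw [← ValuationSubring.valuation_le_one_iff, ha, map_div₀]
    by_cases hj : j ∈ p.support
    · exact (div_le_one₀ hvc0).mpr (hmax j hj)
    · rw [Polynomial.notMem_support_iff.mp hj, map_zero, zero_div]
      exact zero_le_one
  have haj0 : a j0 = 1 := div_self hc0
  set n := p.natDegree with hn
  have hsum : ∑ j ∈ Finset.range (n + 1), algebraMap F0 F' (a j) * x ^ j = 0 := by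
    rw [Polynomial.aeval_eq_sum_range] at hpx
    have hcF : algebraMap F0 F' c ≠ 0 := by
      rwa [Ne, map_eq_zero]
    have : ∑ j ∈ Finset.range (n + 1), algebraMap F0 F' (a j) * x ^ j =
        (algebraMap F0 F' c)⁻¹ * ∑ j ∈ Finset.range (n + 1), p.coeff j • x ^ j := by
      rw [Finset.mul_sum]
      refine Finset.sum_congr rfl fun j _ => ?_
      rw [ha, Algebra.smul_def, map_div₀]
      field_simp
    rw [this, hpx, mul_zero]
  -- the last unit coefficient
  classical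
  set S := (Finset.range (n + 1)).filter (fun j => a j ∉ O.nonunits) with hS
  have hj0S : j0 ∈ S := by
    rw [hS, Finset.mem_filter, Finset.mem_range]
    refine ⟨Nat.lt_succ_of_le (Polynomial.le_natDegree_of_mem_supp j0 hj0), ?_⟩
    rw [haj0, ValuationSubring.mem_nonunits_iff, map_one]
    exact lt_irrefl _
  have hSne : S.Nonempty := ⟨j0, hj0S⟩
  set k := S.max' hSne with hk
  have hkS : k ∈ S := Finset.max'_mem S hSne
  rw [hS, Finset.mem_filter, Finset.mem_range] at hkS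
  obtain ⟨hkn, hku⟩ := hkS
  have hkn' : k ≤ n := Nat.lt_succ_iff.mp hkn
  have hgt : ∀ j, j < n + 1 → k < j → a j ∈ O.nonunits := by
    intro j hj hkj
    by_contra hcon
    have : j ∈ S := by
      rw [hS, Finset.mem_filter, Finset.mem_range]
      exact ⟨hj, hcon⟩
    exact absurd (Finset.le_max' S j this) (not_le.mpr hkj)
  -- the two elements
  set y : F' := ∑ i ∈ Finset.range (n + 1 - k), algebraMap F0 F' (a (k + i)) * x ^ i with hy
  set b : F' := -∑ j ∈ Finset.range k, algebraMap F0 F' (a j) * (x⁻¹) ^ (k - 1 - j) with hb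
  have hxy : x * y = b := split_identity (fun j => algebraMap F0 F' (a j)) hx0 hkn' hsum
  have hyb : y = x⁻¹ * b := by
    rw [← hxy, ← mul_assoc, inv_mul_cancel₀ hx0, one_mul]
  have hmem : ∀ V : ValuationSubring F', (∀ e ∈ O, algebraMap F0 F' e ∈ V) → y ∈ V ∧ b ∈ V := by
    intro V hV
    by_cases hxV : x ∈ V
    · have hyV : y ∈ V :=
        sum_mem fun i _ => mul_mem (hV _ (haO _)) (pow_mem hxV _)
      exact ⟨hyV, hxy ▸ mul_mem hxV hyV⟩
    · have hxi : x⁻¹ ∈ V := (V.mem_or_inv_mem x).resolve_left hxV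
      have hbV : b ∈ V :=
        neg_mem (sum_mem fun i _ => mul_mem (hV _ (haO _)) (pow_mem hxi _))
      exact ⟨hyb ▸ mul_mem hxi hbV, hbV⟩
  refine ⟨y, b, mem_hull_iff.mpr fun V hV => (hmem V hV).1,
    mem_hull_iff.mpr fun V hV => (hmem V hV).2, ?_, hxy⟩
  -- `y` is a unit of `W`
  have hsplit : n + 1 - k = (n - k) + 1 := by omega
  have hy2 : y = (∑ i ∈ Finset.range (n - k), algebraMap F0 F' (a (k + (i + 1))) * x ^ (i + 1)) +
      algebraMap F0 F' (a k) := by
    rw [hy, hsplit, Finset.sum_range_succ']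
    simp
  have hv1 : W.valuation (algebraMap F0 F' (a k)) = 1 := by
    have h1 : W.valuation (algebraMap F0 F' (a k)) ≤ 1 := by
      rw [ValuationSubring.valuation_le_one_iff, hW]
      exact haO k
    have h2 : ¬ W.valuation (algebraMap F0 F' (a k)) < 1 := by
      rw [← ValuationSubring.mem_nonunits_iff, algebraMap_mem_nonunits_iff hW]
      exact hku
    exact le_antisymm h1 (not_lt.mp h2)
  have hv2 : W.valuation
      (∑ i ∈ Finset.range (n - k), algebraMap F0 F' (a (k + (i + 1))) * x ^ (i + 1)) < 1 := by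
    apply Valuation.map_sum_lt _ one_ne_zero
    intro i hi
    rw [Finset.mem_range] at hi
    have h3 : W.valuation (algebraMap F0 F' (a (k + (i + 1)))) < 1 := by
      rw [← ValuationSubring.mem_nonunits_iff, algebraMap_mem_nonunits_iff hW]
      exact hgt _ (by omega) (by omega)
    have h4 : W.valuation (x ^ (i + 1)) ≤ 1 := by
      rw [ValuationSubring.valuation_le_one_iff]
      exact pow_mem hx _
    rw [map_mul]
    exact mul_lt_one_of_lt_of_le h3 h4
  intro hcon
  rw [ValuationSubring.mem_nonunits_iff, hy2,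
    Valuation.map_add_eq_of_lt_right _ (by rw [hv1]; exact hv2), hv1] at hcon
  exact lt_irrefl _ hcon

/-- a valuation subring over `O` is determined by its centre on the hull -/
theorem le_of_centre_le [Algebra.IsAlgebraic F0 F'] {V W : ValuationSubring F'}
    (hV : ∀ e : F0, algebraMap F0 F' e ∈ V ↔ e ∈ O)
    (hW : ∀ e : F0, algebraMap F0 F' e ∈ W ↔ e ∈ O)
    (hc : ∀ y ∈ hull (F' := F') O, y ∈ V.nonunits → y ∈ W.nonunits) : W ≤ V := by
  intro x hx
  obtain ⟨y, b, hy, hb, hyW, hxy⟩ := exists_fraction hW hx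
  have hyV : y ∈ V := hull_le (fun e he => (hV e).mpr he) hy
  have hbV : b ∈ V := hull_le (fun e he => (hV e).mpr he) hb
  have hyVn : y ∉ V.nonunits := fun h => hyW (hc y hy h)
  have hy0 : y ≠ 0 := by
    rintro rfl
    exact hyVn (zero_mem _)
  have hyi : y⁻¹ ∈ V := by
    by_contra hcon
    exact hyVn (V.mem_nonunits_iff_or.mpr (Or.inr hcon))
  have : x = b * y⁻¹ := by
    rw [← hxy, mul_assoc, mul_inv_cancel₀ hy0, mul_one]
  rw [this]
  exact mul_mem hbV hyi

theorem eq_of_centre_eq [Algebra.IsAlgebraic F0 F'] {V W : ValuationSubring F'}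
    (hV : ∀ e : F0, algebraMap F0 F' e ∈ V ↔ e ∈ O)
    (hW : ∀ e : F0, algebraMap F0 F' e ∈ W ↔ e ∈ O)
    (hc : ∀ y ∈ hull (F' := F') O, y ∈ V.nonunits ↔ y ∈ W.nonunits) : V = W :=
  le_antisymm (le_of_centre_le hW hV fun y hy => (hc y hy).mpr)
    (le_of_centre_le hV hW fun y hy => (hc y hy).mp)

end Fraction

section Action

variable {F0 F' : Type*} [Field F0] [Field F'] [Algebra F0 F']
variable {G : Type*} [Group G] [MulSemiringAction G F'] [SMulCommClass G F0 F']
variable {O : ValuationSubring F0}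

omit [SMulCommClass G F0 F'] in
theorem smul_algebraMap' [SMulCommClass G F0 F'] (g : G) (e : F0) :
    g • algebraMap F0 F' e = algebraMap F0 F' e := by
  rw [Algebra.algebraMap_eq_smul_one, smul_comm, smul_one]

theorem smul_mem_hull (g : G) {x : F'} (hx : x ∈ hull (F' := F') O) :
    g • x ∈ hull (F' := F') O := by
  rw [mem_hull_iff] at hx ⊢
  intro V hV
  have h1 : x ∈ g⁻¹ • V := by
    apply hx
    intro e he
    rw [ValuationSubring.mem_pointwise_smul_iff_inv_smul_mem, inv_inv, smul_algebraMap']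
    exact hV e he
  rwa [ValuationSubring.mem_pointwise_smul_iff_inv_smul_mem, inv_inv] at h1

instance : IsInvariantSubring G (hull (F' := F') O) := ⟨fun g _ hx => smul_mem_hull g hx⟩

theorem smul_over (g : G) {W : ValuationSubring F'}
    (hW : ∀ e : F0, algebraMap F0 F' e ∈ W ↔ e ∈ O) (e : F0) :
    algebraMap F0 F' e ∈ g • W ↔ e ∈ O := by
  rw [ValuationSubring.mem_pointwise_smul_iff_inv_smul_mem, smul_algebraMap', hW]

omit [Algebra F0 F'] [SMulCommClass G F0 F'] in
theorem mem_smul_nonunits_iff (g : G) (W : ValuationSubring F') (x : F') :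
    x ∈ (g • W).nonunits ↔ g⁻¹ • x ∈ W.nonunits := by
  rw [ValuationSubring.mem_nonunits_iff_or, ValuationSubring.mem_nonunits_iff_or,
    ValuationSubring.mem_pointwise_smul_iff_inv_smul_mem, smul_inv'', smul_eq_zero_iff_eq]

end Action

section Centre

variable {F0 F' : Type*} [Field F0] [Field F'] [Algebra F0 F']
variable {O : ValuationSubring F0}

/-- the centre of `W ⊇ O` on the hull, as an ideal -/
def centre (W : ValuationSubring F') (hW : ∀ e ∈ O, algebraMap F0 F' e ∈ W) :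
    Ideal (hull (F' := F') O) where
  carrier := {b | (b : F') ∈ W.nonunits}
  add_mem' := fun ha hb => W.nonunits.add_mem ha hb
  zero_mem' := W.nonunits.zero_mem
  smul_mem' := fun c x hx => by
    have hc : (c : F') ∈ W := hull_le hW c.2
    change ((c : F') * (x : F')) ∈ W.nonunits
    rw [ValuationSubring.mem_nonunits_iff, map_mul, mul_comm]
    exact mul_lt_one_of_lt_of_le ((W.mem_nonunits_iff).mp hx)
      ((W.valuation_le_one_iff _).mpr hc)

theorem mem_centre_iff {W : ValuationSubring F'} {hW : ∀ e ∈ O, algebraMap F0 F' e ∈ W}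
    {b : hull (F' := F') O} : b ∈ centre W hW ↔ (b : F') ∈ W.nonunits := Iff.rfl

instance centre_isPrime (W : ValuationSubring F') (hW : ∀ e ∈ O, algebraMap F0 F' e ∈ W) :
    (centre W hW).IsPrime := by
  refine ⟨?_, ?_⟩
  · intro h
    have h1 : (1 : hull (F' := F') O) ∈ centre W hW := by
      rw [h]
      trivial
    rw [mem_centre_iff, ValuationSubring.mem_nonunits_iff] at h1
    simp at h1
  · intro x y hxy
    rw [mem_centre_iff, ValuationSubring.mem_nonunits_iff] at hxy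
    have hx : W.valuation (x : F') ≤ 1 := (W.valuation_le_one_iff _).mpr (hull_le hW x.2)
    have hy : W.valuation (y : F') ≤ 1 := (W.valuation_le_one_iff _).mpr (hull_le hW y.2)
    by_contra hcon
    push Not at hcon
    rw [mem_centre_iff, mem_centre_iff, ValuationSubring.mem_nonunits_iff,
      ValuationSubring.mem_nonunits_iff] at hcon
    have hx1 : W.valuation (x : F') = 1 := le_antisymm hx (not_lt.mp hcon.1)
    have hy1 : W.valuation (y : F') = 1 := le_antisymm hy (not_lt.mp hcon.2)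
    have : W.valuation ((x * y : hull (F' := F') O) : F') = 1 := by
      rw [Subring.coe_mul, map_mul, hx1, hy1, one_mul]
    rw [this] at hxy
    exact lt_irrefl _ hxy

end Centre

section Transitive

variable {F0 F' : Type*} [Field F0] [Field F'] [Algebra F0 F']
variable {G : Type*} [Group G] [Finite G] [MulSemiringAction G F'] [SMulCommClass G F0 F']
  [Algebra.IsInvariant F0 F' G]
variable {O : ValuationSubring F0}

/-- **(T1)** two valuation subrings of `F'` over the valuation subring `O` of `F0 = F'^G` are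
conjugate under the finite group `G`. -/
theorem exists_smul_eq {W₁ W₂ : ValuationSubring F'}
    (h₁ : ∀ e : F0, algebraMap F0 F' e ∈ W₁ ↔ e ∈ O)
    (h₂ : ∀ e : F0, algebraMap F0 F' e ∈ W₂ ↔ e ∈ O) : ∃ g : G, W₂ = g • W₁ := by
  have halg : Algebra.IsAlgebraic F0 F' :=
    have : Algebra.IsIntegral F0 F' := Algebra.IsInvariant.isIntegral F0 F' G
    inferInstance
  let φ : ↥O →+* ↥(hull (F' := F') O) :=
    ((algebraMap F0 F').comp O.subtype).codRestrict (hull (F' := F') O)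
      fun e => algebraMap_mem_hull e.2
  let _ : Algebra ↥O ↥(hull (F' := F') O) := φ.toAlgebra
  have hφ : ∀ e : ↥O, ((algebraMap ↥O ↥(hull (F' := F') O) e : hull (F' := F') O) : F') =
      algebraMap F0 F' (e : F0) := fun _ => rfl
  have hsm : ∀ (g : G) (b : hull (F' := F') O), ((g • b : hull (F' := F') O) : F') =
      g • (b : F') := fun _ _ => rfl
  have : SMulCommClass G ↥O ↥(hull (F' := F') O) := ⟨fun g a b => by
    apply Subtype.ext
    rw [hsm, Algebra.smul_def, Algebra.smul_def, Subring.coe_mul, Subring.coe_mul, hφ, smul_mul',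
      smul_algebraMap', hsm]⟩
  have : Algebra.IsInvariant ↥O ↥(hull (F' := F') O) G := ⟨fun b hb => by
    have h1 : ∀ g : G, g • (b : F') = (b : F') := fun g => by
      rw [← hsm, hb g]
    obtain ⟨e, he⟩ := Algebra.IsInvariant.isInvariant (A := F0) (G := G) (b : F') h1
    have heO : e ∈ O := by
      rw [← h₁ e, he]
      exact hull_le (fun e he => (h₁ e).mpr he) b.2
    exact ⟨⟨e, heO⟩, Subtype.ext (by rw [hφ, he])⟩⟩
  have hW₁ : ∀ e ∈ O, algebraMap F0 F' e ∈ W₁ := fun e he => (h₁ e).mpr he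
  have hW₂ : ∀ e ∈ O, algebraMap F0 F' e ∈ W₂ := fun e he => (h₂ e).mpr he
  have hunder : (centre W₁ hW₁).under ↥O = (centre W₂ hW₂).under ↥O := by
    ext a
    rw [Ideal.under_def, Ideal.mem_comap, Ideal.mem_comap, mem_centre_iff, mem_centre_iff, hφ,
      algebraMap_mem_nonunits_iff h₁, algebraMap_mem_nonunits_iff h₂]
  obtain ⟨g, hg⟩ := Algebra.IsInvariant.exists_smul_of_under_eq ↥O ↥(hull (F' := F') O) G
    (centre W₁ hW₁) (centre W₂ hW₂) hunder
  refine ⟨g, eq_of_centre_eq h₂ (smul_over g h₁) fun y hy => ?_⟩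
  have h3 : (⟨y, hy⟩ : hull (F' := F') O) ∈ centre W₂ hW₂ ↔
      (⟨y, hy⟩ : hull (F' := F') O) ∈ g • centre W₁ hW₁ := by rw [hg]
  rw [mem_centre_iff, Ideal.mem_pointwise_smul_iff_inv_smul_mem, mem_centre_iff, hsm] at h3
  rw [mem_smul_nonunits_iff]
  exact h3

end Transitive

section Ord

variable {F' : Type*} [Field F']

/-- `w` is a `ℤ`-valued order function of the valuation subring `W`: additive on products of
nonzero elements, and `W` is its non-negative part.  (No normalisation, no surjectivity.) -/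
def IsOrd (W : ValuationSubring F') (w : F' → ℤ) : Prop :=
  (∀ x y : F', x ≠ 0 → y ≠ 0 → w (x * y) = w x + w y) ∧ ∀ x : F', x ≠ 0 → (0 ≤ w x ↔ x ∈ W)

namespace IsOrd

variable {W : ValuationSubring F'} {w w' : F' → ℤ}

theorem map_mul (h : IsOrd W w) {x y : F'} (hx : x ≠ 0) (hy : y ≠ 0) : w (x * y) = w x + w y :=
  h.1 x y hx hy

theorem nonneg_iff (h : IsOrd W w) {x : F'} (hx : x ≠ 0) : 0 ≤ w x ↔ x ∈ W := h.2 x hx

theorem map_one (h : IsOrd W w) : w 1 = 0 := by
  have := h.map_mul (one_ne_zero) (one_ne_zero)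
  rw [mul_one] at this
  linarith

theorem map_inv (h : IsOrd W w) {x : F'} (hx : x ≠ 0) : w x⁻¹ = -w x := by
  have := h.map_mul hx (inv_ne_zero hx)
  rw [mul_inv_cancel₀ hx, h.map_one] at this
  linarith

theorem map_pow (h : IsOrd W w) {x : F'} (hx : x ≠ 0) (n : ℕ) : w (x ^ n) = n * w x := by
  induction n with
  | zero => simp [h.map_one]
  | succ n ih =>
    rw [pow_succ, h.map_mul (pow_ne_zero n hx) hx, ih]
    push_cast
    ring

theorem map_zpow (h : IsOrd W w) {x : F'} (hx : x ≠ 0) (n : ℤ) : w (x ^ n) = n * w x := by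
  obtain ⟨m, rfl | rfl⟩ := n.eq_nat_or_neg
  · rw [zpow_natCast, h.map_pow hx]
  · rw [zpow_neg, zpow_natCast, h.map_inv (pow_ne_zero m hx), h.map_pow hx]
    ring

theorem eq_zero_iff (h : IsOrd W w) {x : F'} (hx : x ≠ 0) : w x = 0 ↔ x ∈ W ∧ x⁻¹ ∈ W := by
  rw [← h.nonneg_iff hx, ← h.nonneg_iff (inv_ne_zero hx), h.map_inv hx]
  constructor
  · intro h0
    rw [h0]
    simp
  · rintro ⟨h1, h2⟩
    linarith

/-- two order functions of the same valuation subring agreeing at one element of nonzero order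
are equal -/
theorem unique (h : IsOrd W w) (h' : IsOrd W w') {c : F'} (hc0 : c ≠ 0) (hc : w c ≠ 0)
    (hcc : w c = w' c) {x : F'} (hx : x ≠ 0) : w x = w' x := by
  have hu0 : x ^ (w c) * c ^ (-(w x)) ≠ 0 := mul_ne_zero (zpow_ne_zero _ hx) (zpow_ne_zero _ hc0)
  have h1 : w (x ^ (w c) * c ^ (-(w x))) = 0 := by
    rw [h.map_mul (zpow_ne_zero _ hx) (zpow_ne_zero _ hc0), h.map_zpow hx, h.map_zpow hc0]
    ring
  have h2 : w' (x ^ (w c) * c ^ (-(w x))) = 0 := by
    rw [h'.eq_zero_iff hu0, ← h.eq_zero_iff hu0]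
    exact h1
  rw [h'.map_mul (zpow_ne_zero _ hx) (zpow_ne_zero _ hc0), h'.map_zpow hx, h'.map_zpow hc0,
    ← hcc] at h2
  have h3 : w c * (w' x - w x) = 0 := by linarith
  rcases mul_eq_zero.mp h3 with h4 | h4
  · exact absurd h4 hc
  · linarith

/-- transport of an order function along the pointwise action -/
theorem smul {G : Type*} [Group G] [MulSemiringAction G F'] (h : IsOrd W w) (g : G) :
    IsOrd (g • W) fun x => w (g⁻¹ • x) := by
  refine ⟨fun x y hx hy => ?_, fun x hx => ?_⟩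
  · change w (g⁻¹ • (x * y)) = _
    rw [smul_mul']
    exact h.map_mul (by rwa [Ne, smul_eq_zero_iff_eq]) (by rwa [Ne, smul_eq_zero_iff_eq])
  · change 0 ≤ w (g⁻¹ • x) ↔ _
    rw [ValuationSubring.mem_pointwise_smul_iff_inv_smul_mem]
    exact h.nonneg_iff (by rwa [Ne, smul_eq_zero_iff_eq])

end IsOrd

end Ord

section ModP

variable {F0 F' : Type*} [Field F0] [Field F'] [Algebra F0 F']
variable {G : Type*} [Group G] [Finite G] [MulSemiringAction G F'] [SMulCommClass G F0 F']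
  [Algebra.IsInvariant F0 F' G]
variable {O : ValuationSubring F0}

/-- the order function of a conjugate: if `w₁, w₂` are order functions of `W₁, W₂` over `O` with
the same non-trivial restriction `v` to `F0`, then `w₂ = w₁ ∘ g⁻¹` for some `g : G`. -/
theorem exists_ord_eq {W₁ W₂ : ValuationSubring F'}
    (h₁ : ∀ e : F0, algebraMap F0 F' e ∈ W₁ ↔ e ∈ O)
    (h₂ : ∀ e : F0, algebraMap F0 F' e ∈ W₂ ↔ e ∈ O)
    {w₁ w₂ : F' → ℤ} (hw₁ : IsOrd W₁ w₁) (hw₂ : IsOrd W₂ w₂) {v : F0 → ℤ}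
    (hv₁ : ∀ e : F0, e ≠ 0 → w₁ (algebraMap F0 F' e) = v e)
    (hv₂ : ∀ e : F0, e ≠ 0 → w₂ (algebraMap F0 F' e) = v e)
    {c : F0} (hc0 : c ≠ 0) (hc : v c ≠ 0) :
    ∃ g : G, W₂ = g • W₁ ∧ ∀ x : F', x ≠ 0 → w₂ x = w₁ (g⁻¹ • x) := by
  obtain ⟨g, hg⟩ := exists_smul_eq (G := G) h₁ h₂
  refine ⟨g, hg, fun x hx => ?_⟩
  have h3 : IsOrd W₂ fun x => w₁ (g⁻¹ • x) := hg ▸ hw₁.smul g
  have hcF : algebraMap F0 F' c ≠ 0 := by rwa [Ne, map_eq_zero]
  refine hw₂.unique h3 hcF (by rw [hv₂ c hc0]; exact hc) ?_ hx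
  rw [smul_algebraMap', hv₁ c hc0, hv₂ c hc0]

/-- **(T2)** `w(f) mod p` does not depend on the valuation `w` over `O`, when
`g • f = a * h ^ p * f` with `a ∈ F0`, `p ∣ v a`, for every `g : G`. -/
theorem ord_sub_dvd {W₁ W₂ : ValuationSubring F'}
    (h₁ : ∀ e : F0, algebraMap F0 F' e ∈ W₁ ↔ e ∈ O)
    (h₂ : ∀ e : F0, algebraMap F0 F' e ∈ W₂ ↔ e ∈ O)
    {w₁ w₂ : F' → ℤ} (hw₁ : IsOrd W₁ w₁) (hw₂ : IsOrd W₂ w₂) {v : F0 → ℤ}
    (hv₁ : ∀ e : F0, e ≠ 0 → w₁ (algebraMap F0 F' e) = v e)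
    (hv₂ : ∀ e : F0, e ≠ 0 → w₂ (algebraMap F0 F' e) = v e)
    {c : F0} (hc0 : c ≠ 0) (hc : v c ≠ 0) (p : ℕ) {f : F'} (hf : f ≠ 0)
    (hσ : ∀ g : G, ∃ (a : F0) (h : F'), a ≠ 0 ∧ h ≠ 0 ∧
      g • f = algebraMap F0 F' a * h ^ p * f ∧ (p : ℤ) ∣ v a) :
    (p : ℤ) ∣ w₂ f - w₁ f := by
  obtain ⟨g, -, hg⟩ := exists_ord_eq (G := G) h₁ h₂ hw₁ hw₂ hv₁ hv₂ hc0 hc
  obtain ⟨a, h, ha0, hh0, hgf, hpa⟩ := hσ g⁻¹
  have haF : algebraMap F0 F' a ≠ 0 := by rwa [Ne, map_eq_zero]
  rw [hg f hf, hgf, hw₁.map_mul (mul_ne_zero haF (pow_ne_zero p hh0)) hf,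
    hw₁.map_mul haF (pow_ne_zero p hh0), hw₁.map_pow hh0, hv₁ a ha0]
  have : v a + (p : ℤ) * w₁ h + w₁ f - w₁ f = v a + (p : ℤ) * w₁ h := by ring
  rw [this]
  exact dvd_add hpa (dvd_mul_right _ _)

omit [Finite G] [Algebra.IsInvariant F0 F' G] in
/-- the relation `σ • f = a * h ^ p * f` propagates to the powers of `σ` -/
theorem exists_pow_smul_eq {σ : G} {p : ℕ} {f : F'} {a : F0} {h : F'} (hh0 : h ≠ 0)
    (hσ : σ • f = algebraMap F0 F' a * h ^ p * f) (n : ℕ) :
    ∃ hn : F', hn ≠ 0 ∧ (σ ^ n) • f = algebraMap F0 F' (a ^ n) * hn ^ p * f := by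
  induction n with
  | zero => exact ⟨1, one_ne_zero, by simp⟩
  | succ n ih =>
    obtain ⟨hn, hn0, hn1⟩ := ih
    refine ⟨σ • hn * h, mul_ne_zero (by rwa [Ne, smul_eq_zero_iff_eq]) hh0, ?_⟩
    rw [pow_succ', mul_smul, hn1, smul_mul', smul_mul', smul_algebraMap', smul_pow', hσ, pow_succ,
      map_mul, mul_pow]
    ring

/-- **(T2), generator form**: `G` is generated by `σ` and `σ • f = a * h ^ p * f` with
`p ∣ v a`. -/
theorem ord_sub_dvd_of_generator {W₁ W₂ : ValuationSubring F'}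
    (h₁ : ∀ e : F0, algebraMap F0 F' e ∈ W₁ ↔ e ∈ O)
    (h₂ : ∀ e : F0, algebraMap F0 F' e ∈ W₂ ↔ e ∈ O)
    {w₁ w₂ : F' → ℤ} (hw₁ : IsOrd W₁ w₁) (hw₂ : IsOrd W₂ w₂) {v : F0 → ℤ}
    (hv₁ : ∀ e : F0, e ≠ 0 → w₁ (algebraMap F0 F' e) = v e)
    (hv₂ : ∀ e : F0, e ≠ 0 → w₂ (algebraMap F0 F' e) = v e)
    {c : F0} (hc0 : c ≠ 0) (hc : v c ≠ 0) (p : ℕ) {f : F'} (hf : f ≠ 0)
    {σ : G} (hgen : ∀ g : G, g ∈ Subgroup.zpowers σ) {a : F0} {h : F'} (ha0 : a ≠ 0) (hh0 : h ≠ 0)
    (hσ : σ • f = algebraMap F0 F' a * h ^ p * f) (hpa : (p : ℤ) ∣ v a) :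
    (p : ℤ) ∣ w₂ f - w₁ f := by
  refine ord_sub_dvd (G := G) h₁ h₂ hw₁ hw₂ hv₁ hv₂ hc0 hc p hf fun g => ?_
  obtain ⟨n, rfl⟩ := (mem_powers_iff_mem_zpowers (x := σ)).mpr (hgen g)
  obtain ⟨hn, hn0, hn1⟩ := exists_pow_smul_eq hh0 hσ n
  refine ⟨a ^ n, hn, pow_ne_zero n ha0, hn0, hn1, ?_⟩
  have hva : v (a ^ n) = n * v a := by
    have haF : algebraMap F0 F' a ≠ 0 := by rwa [Ne, map_eq_zero]
    rw [← hv₁ _ (pow_ne_zero n ha0), map_pow, hw₁.map_pow haF, hv₁ a ha0]
  rw [hva]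
  exact dvd_mul_of_dvd_right hpa _

end ModP

section Galois

variable {F0 F' : Type*} [Field F0] [Field F'] [Algebra F0 F'] [FiniteDimensional F0 F']
  [IsGalois F0 F']
variable {O : ValuationSubring F0}

/-- **(T1), Galois form**: two valuation subrings of the finite Galois extension `F'` over the
same valuation subring `O` of `F0` are conjugate under `Gal(F'/F0)`. -/
theorem exists_algEquiv_comap_eq {W₁ W₂ : ValuationSubring F'}
    (h₁ : ∀ e : F0, algebraMap F0 F' e ∈ W₁ ↔ e ∈ O)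
    (h₂ : ∀ e : F0, algebraMap F0 F' e ∈ W₂ ↔ e ∈ O) :
    ∃ g : F' ≃ₐ[F0] F', W₂ = W₁.comap (g : F' →+* F') := by
  obtain ⟨g, hg⟩ := exists_smul_eq (G := F' ≃ₐ[F0] F') h₁ h₂
  refine ⟨g⁻¹, ?_⟩
  ext x
  rw [hg, ValuationSubring.mem_pointwise_smul_iff_inv_smul_mem, ValuationSubring.mem_comap]
  rfl

/-- **(T2), Galois form** with a generator `σ` of `Gal(F'/F0)`. -/
theorem ord_sub_dvd_of_generator_gal {W₁ W₂ : ValuationSubring F'}
    (h₁ : ∀ e : F0, algebraMap F0 F' e ∈ W₁ ↔ e ∈ O)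
    (h₂ : ∀ e : F0, algebraMap F0 F' e ∈ W₂ ↔ e ∈ O)
    {w₁ w₂ : F' → ℤ} (hw₁ : IsOrd W₁ w₁) (hw₂ : IsOrd W₂ w₂) {v : F0 → ℤ}
    (hv₁ : ∀ e : F0, e ≠ 0 → w₁ (algebraMap F0 F' e) = v e)
    (hv₂ : ∀ e : F0, e ≠ 0 → w₂ (algebraMap F0 F' e) = v e)
    {c : F0} (hc0 : c ≠ 0) (hc : v c ≠ 0) (p : ℕ) {f : F'} (hf : f ≠ 0)
    {σ : F' ≃ₐ[F0] F'} (hgen : ∀ g : F' ≃ₐ[F0] F', g ∈ Subgroup.zpowers σ) {a : F0} {h : F'}
    (ha0 : a ≠ 0) (hh0 : h ≠ 0) (hσ : σ f = algebraMap F0 F' a * h ^ p * f)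
    (hpa : (p : ℤ) ∣ v a) : (p : ℤ) ∣ w₂ f - w₁ f :=
  ord_sub_dvd_of_generator (G := F' ≃ₐ[F0] F') h₁ h₂ hw₁ hw₂ hv₁ hv₂ hc0 hc p hf hgen ha0 hh0 hσ hpa

end Galois

end Fermat.Agent.S40x.R2.Transitive
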