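/-
P-S44, block C3, seam C3-KF + C3-COV (modular instance) + C3-DESC-INST + C3-KUM  (helper16).

One-call form of the first half of the `cover trick' for the modular function field
`F = modularFunctionFieldBar N ⊆ ℚ̄((q))`:

* `hii_of_smul_sub` : hypothesis `hii` of `Kum/DescInst.descent_cover` for a Kummer function `u`
  of a class `x` with `σ x - x = j l0` (from `KF.coeffMap_kummer`, constant in the `HahnSeries.C`
  shape);
* `exists_finiteIndex_fixing` : the finite-index subgroup `G'` of a subgroup `I ≤ G_ℚ` fixing a given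
  element of `F` (from (KF4));
* `descent_modular` : for a subgroup `I ≤ G_ℚ` acting on `l0` through the cyclotomic character and
  on `x` by `σ x - x = j σ • l0`: the descended function `ft = u g ^ p`, fixed by `I`, in the
  Kummer cover `F(z)`, `z ^ p = u0`, with `σ ft = β ^ p h ^ p ft`, `h` fixed by `I`, `β ^ p` fixed
  by `I`, and the Kummer relation `τ β * ζ ^ j τ = β` for EVERY `τ ∈ I`;
* `descent_modular_peu` : the same for the inertia group `I` of a place `P ∣ p` of `ℚ̄`, plus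
  (h3) [peu ramifié: `b ^ p` a unit of the inertia field, `τ b = ζ ^ j τ b` on `I ∩ G_{ℚ(ζ)}`]
  ==> `β ^ p = p ^ (p k) * unit`  (landed `Kummer.kummer_glue_char`).
-/
import Fermat.Agent.S40x.R2.Cover.Modular
import Fermat.Agent.S40x.Kum.DescInst
import Fermat.Agent.S40x.R2.KummerPeu

set_option autoImplicit false
set_option linter.style.haveILetI false

noncomputable section

namespace Fermat.Agent.S40x.R2.CoverModular

open HahnSeries ModularCurve AlgebraicCurve Fermat.Agent.Gateway.Kummer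
open Fermat.Agent.S40x.R2.Cover

local notation "Qb" => AlgebraicClosure ℚ
local notation "Γℚ" => (AlgebraicClosure ℚ ≃ₐ[ℚ] AlgebraicClosure ℚ)

variable {N : ℕ} [NeZero N] {p : ℕ}

/-- hypothesis `hii` of `DescInst.descent_cover`, for Kummer functions: if `σ x - x = j l0` then
`coeffMap σ u = C c * u * u0 ^ j * k ^ p` with `k ∈ F`, `c` a constant. -/
theorem hii_of_smul_sub {x l0 : JZero N} {u u0 : modularFunctionFieldBar N}
    (hu : IsKummerRep p x u) (hu0 : IsKummerRep p l0 u0) (σ : Γℚ) {j : ℕ}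
    (h : σ • x - x = j • l0) :
    ∃ (k : modularFunctionFieldBar N) (c : Qb), k ≠ 0 ∧ c ≠ 0 ∧
      coeffMap (σ : Qb →+* Qb) (u : LaurentSeries Qb) =
        (HahnSeries.C c : LaurentSeries Qb) * (u : LaurentSeries Qb) *
          (u0 : LaurentSeries Qb) ^ j * (k : LaurentSeries Qb) ^ p := by
  obtain ⟨c, k, hc0, hk0, hck⟩ := Fermat.Agent.S40x.R2.KF.coeffMap_kummer hu hu0 σ h
  refine ⟨k, c, hk0, hc0, ?_⟩
  rw [hck, LaurentSeries.algebraMap_apply]

omit [NeZero N] in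
/-- a finite-index subgroup of `I` fixing a given element of `F` -/
theorem exists_finiteIndex_fixing (I : Subgroup Γℚ) (f : modularFunctionFieldBar N) :
    ∃ G' : Subgroup I, G'.FiniteIndex ∧
      ∀ γ ∈ G', coeffMap ((rhoOfSubgroup I γ : Qb ≃+* Qb) : Qb →+* Qb)
        (f : LaurentSeries Qb) = f := by
  obtain ⟨G'', _, hfin, hfix⟩ :=
    Fermat.Agent.S40x.R2.KF.exists_normal_finiteIndex_fixing (N := N) f.2
  haveI := hfin
  exact ⟨G''.subgroupOf I, inferInstance, fun γ hγ => hfix (γ : Γℚ) (Subgroup.mem_subgroupOf.mp hγ)⟩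

/-- **One-call descent for the modular Kummer cover.**  `u0` a normalised Kummer function of
`l0 ≠ 0`, `u` a normalised Kummer function of `x`; `I ≤ G_ℚ` acts on `l0` through exponents `a`
with `σ ζ = ζ ^ a`, and on `x` by `σ x - x = j σ • l0`. -/
theorem descent_modular (hp : p.Prime) {ζ : Qb} (hζ : IsPrimitiveRoot ζ p) {l0 : JZero N}
    (hl0 : l0 ≠ 0) {u0 : modularFunctionFieldBar N} (hu0 : IsKummerRep p l0 u0)
    (hnorm : Normalized (u0 : LaurentSeries Qb)) (I : Subgroup Γℚ)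
    (hI : ∀ σ ∈ I, ∃ a : ℕ, σ • l0 = a • l0 ∧ σ ζ = ζ ^ a)
    {x : JZero N} {u : modularFunctionFieldBar N} (hu : IsKummerRep p x u)
    (hun : Normalized (u : LaurentSeries Qb))
    (j : Γℚ → ℕ) (hx : ∀ σ ∈ I, σ • x - x = j σ • l0) :
    ∃ (g h : (coverDatumOfKummer hp hζ hl0 hu0 hnorm).coverField) (β : Qb),
      g ≠ 0 ∧ h ≠ 0 ∧ β ≠ 0 ∧
      (algebraMap (modularFunctionFieldBar N)
          (coverDatumOfKummer hp hζ hl0 hu0 hnorm).coverField u * g ^ p ∈
        (coverDatumOfKummer hp hζ hl0 hu0 hnorm).fixedField (rhoOfSubgroup I)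
          (stable_rhoOfSubgroup hp hζ hl0 hu0 hnorm I hI)) ∧
      (h ∈ (coverDatumOfKummer hp hζ hl0 hu0 hnorm).fixedField (rhoOfSubgroup I)
          (stable_rhoOfSubgroup hp hζ hl0 hu0 hnorm I hI)) ∧
      (∀ τ ∈ I, τ (β ^ p) = β ^ p) ∧
      (coverDatumOfKummer hp hζ hl0 hu0 hnorm).sigma
          (algebraMap (modularFunctionFieldBar N)
            (coverDatumOfKummer hp hζ hl0 hu0 hnorm).coverField u * g ^ p) =
        algebraMap Qb (coverDatumOfKummer hp hζ hl0 hu0 hnorm).coverField (β ^ p) * h ^ p *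
          (algebraMap (modularFunctionFieldBar N)
            (coverDatumOfKummer hp hζ hl0 hu0 hnorm).coverField u * g ^ p) ∧
      ∀ τ ∈ I, τ β * ζ ^ j τ = β := by
  classical
  set D := coverDatumOfKummer hp hζ hl0 hu0 hnorm with hD
  obtain ⟨G', hG'fin, hG'⟩ := exists_finiteIndex_fixing I u
  haveI := hG'fin
  have hii : ∀ τ : I, ∃ (j' : ℕ) (k : modularFunctionFieldBar N) (c : Qb), k ≠ 0 ∧ c ≠ 0 ∧
      coeffMap ((rhoOfSubgroup I τ : Qb ≃+* Qb) : Qb →+* Qb) (u : LaurentSeries Qb) =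
        (HahnSeries.C c : LaurentSeries Qb) * (u : LaurentSeries Qb) *
          (D.f0 : LaurentSeries Qb) ^ j' * (k : LaurentSeries Qb) ^ p := by
    intro τ
    obtain ⟨k, c, hk0, hc0, hkc⟩ := hii_of_smul_sub hu hu0 (τ : Γℚ) (hx τ τ.2)
    exact ⟨j τ, k, c, hk0, hc0, hkc⟩
  obtain ⟨g, h, β, hg0, hh0, hβ0, hft, hhfix, hβp, hσ, hkum⟩ :=
    Fermat.Agent.S40x.Kum.DescInst.descent_cover D (rhoOfSubgroup I)
      (stable_rhoOfSubgroup hp hζ hl0 hu0 hnorm I hI) (f := u) hu.ne_zero hun G' hG' hii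
  refine ⟨g, h, β, hg0, hh0, hβ0, hft, hhfix, fun τ hτ => hβp ⟨τ, hτ⟩, hσ, fun τ hτ => ?_⟩
  obtain ⟨k, c, hk0, hc0, hkc⟩ := hii_of_smul_sub hu hu0 τ (hx τ hτ)
  exact hkum ⟨τ, hτ⟩ (j τ) k c hk0 hc0 hkc

/-- **Descent + Kummer glue.**  `descent_modular` for the inertia group of a place `P ∣ p` of `ℚ̄`,
together with the peu ramifié hypothesis (h3): the Kummer class `a = β ^ p` of the descended
function is `p ^ (p k)` times a unit of the integers of the inertia field. -/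
theorem descent_modular_peu (hp : p.Prime) (P : ValuationSubring Qb) (hP : P.LiesOverPrime p)
    {ζ : Qb} (hζ : IsPrimitiveRoot ζ p) {l0 : JZero N}
    (hl0 : l0 ≠ 0) {u0 : modularFunctionFieldBar N} (hu0 : IsKummerRep p l0 u0)
    (hnorm : Normalized (u0 : LaurentSeries Qb))
    (hI : ∀ σ ∈ P.inertiaSubgroupIn ℚ, ∃ a : ℕ, σ • l0 = a • l0 ∧ σ ζ = ζ ^ a)
    {x : JZero N} {u : modularFunctionFieldBar N} (hu : IsKummerRep p x u)
    (hun : Normalized (u : LaurentSeries Qb))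
    (j : Γℚ → ℕ) (hx : ∀ σ ∈ P.inertiaSubgroupIn ℚ, σ • x - x = j σ • l0)
    {b : Qb} (hb : b ^ p ∈ Fermat.Agent.S40x.Kummer.unitFixed P)
    (hjb : ∀ τ ∈ P.inertiaSubgroupIn ℚ, τ ζ = ζ → τ b = ζ ^ j τ * b) :
    ∃ (g h : (coverDatumOfKummer hp hζ hl0 hu0 hnorm).coverField) (β : Qb),
      g ≠ 0 ∧ h ≠ 0 ∧ β ≠ 0 ∧
      (algebraMap (modularFunctionFieldBar N)
          (coverDatumOfKummer hp hζ hl0 hu0 hnorm).coverField u * g ^ p ∈
        (coverDatumOfKummer hp hζ hl0 hu0 hnorm).fixedField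
          (rhoOfSubgroup (P.inertiaSubgroupIn ℚ))
          (stable_rhoOfSubgroup hp hζ hl0 hu0 hnorm (P.inertiaSubgroupIn ℚ) hI)) ∧
      (h ∈ (coverDatumOfKummer hp hζ hl0 hu0 hnorm).fixedField
          (rhoOfSubgroup (P.inertiaSubgroupIn ℚ))
          (stable_rhoOfSubgroup hp hζ hl0 hu0 hnorm (P.inertiaSubgroupIn ℚ) hI)) ∧
      (∀ τ ∈ P.inertiaSubgroupIn ℚ, τ (β ^ p) = β ^ p) ∧
      (coverDatumOfKummer hp hζ hl0 hu0 hnorm).sigma
          (algebraMap (modularFunctionFieldBar N)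
            (coverDatumOfKummer hp hζ hl0 hu0 hnorm).coverField u * g ^ p) =
        algebraMap Qb (coverDatumOfKummer hp hζ hl0 hu0 hnorm).coverField (β ^ p) * h ^ p *
          (algebraMap (modularFunctionFieldBar N)
            (coverDatumOfKummer hp hζ hl0 hu0 hnorm).coverField u * g ^ p) ∧
      (∀ τ ∈ P.inertiaSubgroupIn ℚ, τ β * ζ ^ j τ = β) ∧
      ∃ k : ℤ, ∃ w ∈ Fermat.Agent.S40x.Kummer.unitFixed P,
        β ^ p = (p : Qb) ^ ((p : ℤ) * k) * w := by
  obtain ⟨g, h, β, hg0, hh0, hβ0, hft, hhfix, hβp, hσ, hkum⟩ :=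
    descent_modular hp hζ hl0 hu0 hnorm (P.inertiaSubgroupIn ℚ) hI hu hun j hx
  refine ⟨g, h, β, hg0, hh0, hβ0, hft, hhfix, hβp, hσ, hkum, ?_⟩
  exact Fermat.Agent.S40x.Kummer.kummer_glue_char P hp hP hζ (pow_ne_zero p hβ0) hβp rfl hb j
    (fun τ hτ _ => hkum τ hτ) hjb

end Fermat.Agent.S40x.R2.CoverModular
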