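/-
P-S44, block C3 (helper41), leaf B1 (1g) of the R2 blueprint (note 2570): the class `a`.

Abstract Galois-theoretic core of the cover trick (helper16, note 2417, Step 2), Mathlib only.

`F'` is the function field of the cover `X_L` over the algebraically closed constant field `K`,
`σ` the deck transformation (`σ z = ζ z`, `z ^ p = f₀`), `τ` a (semilinear) automorphism of `F'`
commuting with `σ` (an element of the inertia group acting through the rational structure).
`fx` is a Kummer function of `x` (fixed by `σ`: it comes from the base curve), `ft = c * fx * g ^ p`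
the rational Kummer function of `π^* x` (`τ ft = ft`), `σ ft = a * h ^ p * ft` with `τ h = h`, and
`τ fx = cτ * fx * (z ^ p) ^ j * k ^ p` (i.e. `τ x - x = j • l₀`).  Then `B := σ g / (g * h)` is a
constant `β` with `β ^ p = a` and `τ β = ζ⁻¹ ^ j * β`: the constant `a` is the Kummer class of the
extension cut out by `x`.
-/
import Mathlib

set_option autoImplicit false

namespace Fermat.Agent.S40x.R2.ClassA

variable {K F' : Type*} [Field K] [Field F'] [Algebra K F']

/-- An element of an extension of an algebraically closed field `K` whose `p`-th power is a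
constant is a constant. -/
theorem exists_const_of_pow_eq [IsAlgClosed K] {p : ℕ} (hp : p ≠ 0) (b : F') (a : K)
    (h : b ^ p = algebraMap K F' a) : ∃ d : K, b = algebraMap K F' d := by
  have hint : IsIntegral K b := by
    refine ⟨Polynomial.X ^ p - Polynomial.C a, Polynomial.monic_X_pow_sub_C a hp, ?_⟩
    simp [h]
  have hdeg : (minpoly K b).degree = 1 :=
    IsAlgClosed.degree_eq_one_of_irreducible K (minpoly.irreducible hint)
  obtain ⟨d, hd⟩ := minpoly.mem_range_of_degree_eq_one K b hdeg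
  exact ⟨d, hd.symm⟩

section Main

variable [IsAlgClosed K] {p : ℕ} (hp : p ≠ 0)
  (σ τ : F' ≃+* F') (τK : K ≃+* K)
  (hσK : ∀ c : K, σ (algebraMap K F' c) = algebraMap K F' c)
  (hτK : ∀ c : K, τ (algebraMap K F' c) = algebraMap K F' (τK c))
  (hτσ : ∀ y : F', τ (σ y) = σ (τ y))
  {ζ : K} {z : F'} (hσz : σ z = algebraMap K F' ζ * z) (hz : z ≠ 0) (hζ : ζ ≠ 0)
  {fx ft g h k : F'} {c a cτ : K} {j : ℕ}
  (hfx : σ fx = fx) (hk : σ k = k)
  (hg : g ≠ 0) (hh0 : h ≠ 0) (hk0 : k ≠ 0) (hc : c ≠ 0) (hcτ : cτ ≠ 0) (hfx0 : fx ≠ 0)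
  (hft : ft = algebraMap K F' c * fx * g ^ p)
  (hτft : τ ft = ft) (hτh : τ h = h)
  (hτfx : τ fx = algebraMap K F' cτ * fx * (z ^ p) ^ j * k ^ p)
  (hσft : σ ft = algebraMap K F' a * h ^ p * ft)

omit [IsAlgClosed K] in
include hσK hfx hg hh0 hc hfx0 hft hσft in
/-- `(σ g / (g h)) ^ p = a`. -/
theorem pow_eq : (σ g / (g * h)) ^ p = algebraMap K F' a := by
  have hcf : algebraMap K F' c * fx ≠ 0 :=
    mul_ne_zero ((map_ne_zero (algebraMap K F')).mpr hc) hfx0
  have h1 : σ ft = algebraMap K F' c * fx * (σ g) ^ p := by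
    rw [hft, map_mul, map_mul, map_pow, hσK, hfx]
  have h2 : (σ g) ^ p = algebraMap K F' a * h ^ p * g ^ p := by
    have : algebraMap K F' c * fx * (σ g) ^ p =
        algebraMap K F' c * fx * (algebraMap K F' a * h ^ p * g ^ p) := by
      rw [← h1, hσft, hft]; ring
    exact mul_left_cancel₀ hcf this
  have hgh : (g * h) ^ p ≠ 0 := pow_ne_zero _ (mul_ne_zero hg hh0)
  rw [div_pow, h2, div_eq_iff hgh]
  ring

include hp hσK hτK hτσ hσz hz hζ hfx hk hg hh0 hk0 hc hcτ hfx0 hft hτft hτh hτfx hσft in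
/-- **The class `a`.**  `σ g / (g h)` is a constant `β` with `β ^ p = a` and
`τ β * ζ ^ j = β`. -/
theorem exists_beta :
    ∃ β : K, algebraMap K F' β = σ g / (g * h) ∧ β ^ p = a ∧ τK β * ζ ^ j = β := by
  have hpow := pow_eq (p := p) σ hσK hfx hg hh0 hc hfx0 hft hσft
  obtain ⟨β, hβ⟩ := exists_const_of_pow_eq hp _ a hpow
  have hinj := (algebraMap K F').injective
  refine ⟨β, hβ.symm, ?_, ?_⟩
  · apply hinj
    rw [map_pow, ← hβ, hpow]
  -- the element `E = τ g / g`
  have hτg : τ g ≠ 0 := (map_ne_zero τ).mpr hg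
  have hzj : z ^ j ≠ 0 := pow_ne_zero _ hz
  -- `(z^j * k * τ g / g) ^ p` is a constant
  have hτc : τK c ≠ 0 := (map_ne_zero τK).mpr hc
  have h1 : algebraMap K F' (τK c) * (algebraMap K F' cτ * fx * (z ^ p) ^ j * k ^ p) * (τ g) ^ p
      = algebraMap K F' c * fx * g ^ p := by
    have := hτft
    rw [hft, map_mul, map_mul, map_pow, hτK, hτfx] at this
    exact this
  have h2 : (z ^ j * k * (τ g / g)) ^ p = algebraMap K F' (c / (τK c * cτ)) := by
    have hden : algebraMap K F' (τK c * cτ) ≠ 0 :=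
      (map_ne_zero (algebraMap K F')).mpr (mul_ne_zero hτc hcτ)
    rw [map_div₀, eq_div_iff hden, mul_pow, mul_pow, div_pow, map_mul]
    have hgp : g ^ p ≠ 0 := pow_ne_zero _ hg
    field_simp
    have h3 : (z ^ j) ^ p = (z ^ p) ^ j := by rw [← pow_mul, ← pow_mul, mul_comm]
    rw [h3]
    have h4 := mul_left_cancel₀ hfx0 (by
      calc fx * (algebraMap K F' (τK c) * algebraMap K F' cτ * (z ^ p) ^ j * k ^ p * (τ g) ^ p)
          = algebraMap K F' (τK c) * (algebraMap K F' cτ * fx * (z ^ p) ^ j * k ^ p) * (τ g) ^ p := by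
            ring
        _ = algebraMap K F' c * fx * g ^ p := h1
        _ = fx * (algebraMap K F' c * g ^ p) := by ring)
    linear_combination h4
  obtain ⟨d, hd⟩ := exists_const_of_pow_eq hp _ _ h2
  -- `E = d / (z^j k)`
  have hE : τ g / g = algebraMap K F' d / (z ^ j * k) := by
    rw [eq_div_iff (mul_ne_zero hzj hk0), ← hd]; ring
  have hd0 : algebraMap K F' d ≠ 0 := by
    intro h0
    rw [h0] at hd
    have : z ^ j * k * (τ g / g) ≠ 0 :=
      mul_ne_zero (mul_ne_zero hzj hk0) (div_ne_zero hτg hg)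
    exact this hd
  -- `σ E = E / ζ^j`
  have hσE : σ (τ g / g) * algebraMap K F' ζ ^ j = τ g / g := by
    rw [hE, map_div₀, map_mul, map_pow, hσK, hσz, hk, mul_pow]
    have hζ' : algebraMap K F' ζ ^ j ≠ 0 :=
      pow_ne_zero _ ((map_ne_zero (algebraMap K F')).mpr hζ)
    field_simp
  -- `τ B * ζ^j = B`
  have hB : τ (σ g / (g * h)) * algebraMap K F' ζ ^ j = σ g / (g * h) := by
    have hσg : σ g ≠ 0 := (map_ne_zero σ).mpr hg
    have e1 : τ (σ g / (g * h)) = σ (τ g) / (τ g * h) := by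
      rw [map_div₀, map_mul, hτσ, hτh]
    have e2 : σ (τ g) = σ (τ g / g) * σ g := by
      rw [← map_mul, div_mul_cancel₀ _ hg]
    rw [e1, e2]
    have e3 : σ (τ g / g) * σ g / (τ g * h) * algebraMap K F' ζ ^ j
        = (σ (τ g / g) * algebraMap K F' ζ ^ j) * (σ g / (τ g * h)) := by ring
    rw [e3, hσE]
    field_simp
  apply hinj
  rw [map_mul, map_pow, ← hτK, ← hβ]
  exact hB

end Main

end Fermat.Agent.S40x.R2.ClassA
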