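/-
P-S44/S40, block C3, leaf C3-DESC (descent + Kummer class), PRIMARY helper91.
Purely field-theoretic: no divisors, no Pic, no Laurent series (only an abstract leading coefficient).

Setting (`Datum`): `M` = the cover field `FL = F(z)`, `z ^ p = f0`, `L ≤ F ≤ M` constants and the base
function field, `lc : M →*₀ M` the leading coefficient (values in `L`, identity on `L`), `act` a (semilinear)
action of a group `G` on `M` commuting with `lc` and with `σ`, `σ` the generator of `Gal(M/F)`, `σ z = ζ z`.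

`descent` : let `f ∈ F` be normalised with `τ f = c * f * f0 ^ j * k ^ p` (`c ∈ L`, `k ∈ F`) for every `τ ∈ G`
and with a stabiliser `G'` of finite index.  Then there is `g ≠ 0` with `ft := f * g ^ p` fixed by `G`, and
`σ ft = β ^ p * h ^ p * ft` with `h` fixed by `G`, `β ∈ L`, `β ^ p` fixed by `G`, and
`τ β * ζ ^ j = β` for every `τ` and every witness `(j, k, c)` at `τ`  (the Kummer class of the extension).
-/
import Mathlib

set_option autoImplicit false
set_option linter.style.haveILetI false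
set_option linter.unusedSectionVars false

noncomputable section

namespace Fermat.Agent.S40x.R2.Desc

/-- Abstract cover datum: `M` = the cover field `FL = F(z)`, `L` = constants, `lc` = leading coefficient
(of the `q`-expansion), `act` = (semilinear) Galois action of `G` on `M`, `σ` = generator of `Gal(M/F)`. -/
structure Datum (M : Type*) [Field M] (G : Type*) [Group G] (p : ℕ) where
  L : Subfield M
  F : Subfield M
  hLF : L ≤ F
  lc : M →*₀ M
  lc_mem : ∀ m, lc m ∈ L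
  lc_const : ∀ c ∈ L, lc c = c
  act : G →* (M ≃+* M)
  act_lc : ∀ τ m, lc (act τ m) = act τ (lc m)
  ζ : M
  hζ : IsPrimitiveRoot ζ p
  hζL : ζ ∈ L
  σ : M ≃+* M
  σ_F : ∀ x ∈ F, σ x = x
  σ_act : ∀ τ m, σ (act τ m) = act τ (σ m)
  z : M
  f0 : M
  hz : z ^ p = f0
  lc_z : lc z = 1
  σ_z : σ z = ζ * z

variable {M : Type*} [Field M] {G : Type*} [Group G] {p : ℕ}

namespace Datum

variable (D : Datum M G p)

theorem lc_ne_zero {m : M} (hm : m ≠ 0) : D.lc m ≠ 0 := (map_ne_zero D.lc).mpr hm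

theorem ne_zero_of_lc_eq_one {m : M} (hm : D.lc m = 1) : m ≠ 0 := by
  rintro rfl
  rw [map_zero] at hm
  exact zero_ne_one hm

theorem lc_lc (m : M) : D.lc (D.lc m) = D.lc m := D.lc_const _ (D.lc_mem m)

theorem lc_zeta_pow (i : ℕ) : D.lc (D.ζ ^ i) = D.ζ ^ i :=
  D.lc_const _ (D.L.pow_mem D.hζL i)

theorem zeta_ne_zero (hp : p.Prime) : D.ζ ≠ 0 := D.hζ.ne_zero hp.ne_zero

/-- the `p`-th power map is injective on normalised elements -/
theorem eq_of_pow_eq (hp : p.Prime) {a b : M} (ha : D.lc a = 1) (hb : D.lc b = 1)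
    (hab : a ^ p = b ^ p) : a = b := by
  haveI : NeZero p := ⟨hp.ne_zero⟩
  have hb0 : b ≠ 0 := D.ne_zero_of_lc_eq_one hb
  have h1 : (a / b) ^ p = 1 := by
    rw [div_pow, hab, div_self (pow_ne_zero _ hb0)]
  obtain ⟨i, -, hi⟩ := D.hζ.eq_pow_of_pow_eq_one h1
  have h2 : D.lc (a / b) = 1 := by rw [map_div₀, ha, hb, div_one]
  rw [← hi, D.lc_zeta_pow] at h2
  rw [h2] at hi
  have : a / b = 1 := hi.symm
  rwa [div_eq_one_iff_eq hb0] at this

/-- the normalised `p`-th root attached to a witness `(j, k)` -/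
def epsOf (j : ℕ) (k : M) : M := D.z ^ j * (k / D.lc k)

theorem lc_epsOf (j : ℕ) {k : M} (hk : k ≠ 0) : D.lc (D.epsOf j k) = 1 := by
  unfold epsOf
  rw [map_mul, map_pow, D.lc_z, one_pow, one_mul, map_div₀, D.lc_lc, div_self (D.lc_ne_zero hk)]

theorem lc_f0 : D.lc D.f0 = 1 := by rw [← D.hz, map_pow, D.lc_z, one_pow]

theorem epsOf_pow {f : M} (hf0 : f ≠ 0) (hlcf : D.lc f = 1) {τ : G} {j : ℕ} {k c : M}
    (hk : k ≠ 0) (hc : c ∈ D.L)
    (h : D.act τ f = c * f * D.f0 ^ j * k ^ p) : D.epsOf j k ^ p = D.act τ f / f := by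
  have h1 : D.lc (D.act τ f) = 1 := by rw [D.act_lc, hlcf, map_one]
  have h2 : c * D.lc k ^ p = 1 := by
    have := congrArg D.lc h
    rw [h1, map_mul, map_mul, map_mul, map_pow, map_pow, D.lc_const c hc, hlcf, D.lc_f0, one_pow,
      mul_one, mul_one] at this
    exact this.symm
  have hlk : D.lc k ≠ 0 := D.lc_ne_zero hk
  have hc' : c = (D.lc k ^ p)⁻¹ := eq_inv_of_mul_eq_one_left h2
  unfold epsOf
  rw [h, hc', mul_pow, ← pow_mul, mul_comm j p, pow_mul, D.hz, div_pow]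
  field_simp

/-! ### The cocycle `ε` -/

section Cocycle

variable (hp : p.Prime) {f : M} (hf0 : f ≠ 0) (hlcf : D.lc f = 1)
  (hii : ∀ τ : G, ∃ (j : ℕ) (k c : M), k ∈ D.F ∧ k ≠ 0 ∧ c ∈ D.L ∧ c ≠ 0 ∧
      D.act τ f = c * f * D.f0 ^ j * k ^ p)

/-- the normalised `p`-th root of `τ f / f` -/
def eps (τ : G) : M := D.epsOf (hii τ).choose (hii τ).choose_spec.choose

include hp hf0 hlcf

theorem lc_eps (τ : G) : D.lc (D.eps hii τ) = 1 := by
  obtain ⟨-, hk, -, -, -⟩ := (hii τ).choose_spec.choose_spec.choose_spec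
  exact D.lc_epsOf _ hk

theorem eps_pow (τ : G) : D.eps hii τ ^ p = D.act τ f / f := by
  obtain ⟨-, hk, hc, -, h⟩ := (hii τ).choose_spec.choose_spec.choose_spec
  exact D.epsOf_pow hf0 hlcf hk hc h

theorem eps_ne_zero (τ : G) : D.eps hii τ ≠ 0 :=
  D.ne_zero_of_lc_eq_one (D.lc_eps hp hf0 hlcf hii τ)

/-- `ε_τ` is given by ANY witness -/
theorem eps_eq_epsOf {τ : G} {j : ℕ} {k c : M} (hk : k ≠ 0) (hc : c ∈ D.L)
    (h : D.act τ f = c * f * D.f0 ^ j * k ^ p) : D.eps hii τ = D.epsOf j k :=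
  D.eq_of_pow_eq hp (D.lc_eps hp hf0 hlcf hii τ) (D.lc_epsOf j hk)
    (by rw [D.eps_pow hp hf0 hlcf hii τ, D.epsOf_pow hf0 hlcf hk hc h])

theorem eps_mul (τ₁ τ₂ : G) :
    D.eps hii (τ₁ * τ₂) = D.eps hii τ₁ * D.act τ₁ (D.eps hii τ₂) := by
  apply D.eq_of_pow_eq hp (D.lc_eps hp hf0 hlcf hii _)
  · rw [map_mul, D.lc_eps hp hf0 hlcf hii, D.act_lc, D.lc_eps hp hf0 hlcf hii, map_one, mul_one]
  · rw [mul_pow, ← map_pow, D.eps_pow hp hf0 hlcf hii, D.eps_pow hp hf0 hlcf hii,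
      D.eps_pow hp hf0 hlcf hii, map_mul, RingAut.mul_apply, map_div₀]
    have h1 : D.act τ₁ f ≠ 0 := (map_ne_zero _).mpr hf0
    field_simp

theorem eps_eq_one_of_fix {ρ : G} (hρ : D.act ρ f = f) : D.eps hii ρ = 1 := by
  apply D.eq_of_pow_eq hp (D.lc_eps hp hf0 hlcf hii _) (map_one _)
  rw [D.eps_pow hp hf0 hlcf hii, hρ, div_self hf0, one_pow]

end Cocycle

/-! ### Hilbert 90 by a Poincaré series -/

section Hilbert90

open scoped Pointwise

variable (hp : p.Prime) {f : M} (hf0 : f ≠ 0) (hlcf : D.lc f = 1)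
  (hii : ∀ τ : G, ∃ (j : ℕ) (k c : M), k ∈ D.F ∧ k ≠ 0 ∧ c ∈ D.L ∧ c ≠ 0 ∧
      D.act τ f = c * f * D.f0 ^ j * k ^ p)
  (G' : Subgroup G)

/-- the elements fixed by `G'` (as a multiplicative submonoid) -/
def fixedMonoid : Submonoid M where
  carrier := {θ | ∀ ρ ∈ G', D.act ρ θ = θ}
  mul_mem' := by
    intro a b ha hb ρ hρ
    rw [map_mul, ha ρ hρ, hb ρ hρ]
  one_mem' := fun ρ _ => map_one _

/-- the pointwise stabiliser of `M^{G'}` -/
def stab : Subgroup G where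
  carrier := {τ | ∀ θ ∈ D.fixedMonoid G', D.act τ θ = θ}
  mul_mem' := by
    intro a b ha hb θ hθ
    rw [map_mul, RingAut.mul_apply, hb θ hθ, ha θ hθ]
  one_mem' := by
    intro θ _
    rw [map_one]; rfl
  inv_mem' := by
    intro a ha θ hθ
    have h1 : D.act a⁻¹ (D.act a θ) = θ := by
      rw [← RingAut.mul_apply, ← map_mul, inv_mul_cancel, map_one]; rfl
    rw [ha θ hθ] at h1
    exact h1

theorem le_stab : G' ≤ D.stab G' := fun ρ hρ _ hθ => hθ ρ hρ

instance stab_finiteIndex [G'.FiniteIndex] : (D.stab G').FiniteIndex :=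
  Subgroup.finiteIndex_of_le (D.le_stab G')

/-- the ring homs `M^{G'} → M` given by the elements of `G` -/
def resHom (a : G) : D.fixedMonoid G' →* M where
  toFun θ := D.act a θ
  map_one' := by simp
  map_mul' := by intro x y; simp

theorem resHom_injective_out :
    Function.Injective (fun q : G ⧸ D.stab G' => D.resHom G' q.out) := by
  intro q q' h
  rw [← QuotientGroup.out_eq' q, ← QuotientGroup.out_eq' q', QuotientGroup.eq]
  intro θ hθ
  have h1 : D.act q.out θ = D.act q'.out θ := by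
    have := DFunLike.congr_fun h ⟨θ, hθ⟩
    exact this
  rw [map_mul, RingAut.mul_apply, ← h1, ← RingAut.mul_apply, ← map_mul, inv_mul_cancel, map_one]
  rfl

include hp hf0 hlcf

/-- one term of the Poincaré series -/
def term (θ : M) (a : G) : M := D.eps hii a * D.act a θ

theorem term_mul_stab (hG' : ∀ ρ ∈ G', D.act ρ f = f) {θ : M} (hθ : θ ∈ D.fixedMonoid G')
    (a : G) {n : G} (hn : n ∈ D.stab G') : D.term hii θ (a * n) = D.term hii θ a := by
  have hfS : f ∈ D.fixedMonoid G' := hG'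
  have h1 : D.eps hii n = 1 := D.eps_eq_one_of_fix hp hf0 hlcf hii (hn f hfS)
  unfold term
  rw [D.eps_mul hp hf0 hlcf hii, h1, map_one, mul_one, map_mul, RingAut.mul_apply, hn θ hθ]

theorem act_term (θ : M) (τ a : G) :
    D.act τ (D.term hii θ a) = D.term hii θ (τ * a) / D.eps hii τ := by
  unfold term
  rw [map_mul, D.eps_mul hp hf0 hlcf hii τ a, map_mul (D.act), RingAut.mul_apply]
  have := D.eps_ne_zero hp hf0 hlcf hii τ
  field_simp

/-- **Hilbert 90** for the cocycle `ε`. -/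
theorem exists_coboundary [G'.FiniteIndex] (hG' : ∀ ρ ∈ G', D.act ρ f = f) :
    ∃ g : M, g ≠ 0 ∧ ∀ τ : G, D.act τ g = g / D.eps hii τ := by
  classical
  letI : Fintype (G ⧸ D.stab G') := Subgroup.fintypeQuotientOfFiniteIndex
  -- Dedekind
  have hli : LinearIndependent M
      (fun q : G ⧸ D.stab G' => (D.resHom G' q.out : D.fixedMonoid G' → M)) :=
    (linearIndependent_monoidHom (D.fixedMonoid G') M).comp _ (D.resHom_injective_out G')
  have hex : ∃ θ : D.fixedMonoid G',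
      ∑ q : G ⧸ D.stab G', D.term hii (θ : M) q.out ≠ 0 := by
    by_contra hcon
    simp only [not_exists, not_not] at hcon
    have h0 : ∑ q : G ⧸ D.stab G', D.eps hii q.out •
        (D.resHom G' q.out : D.fixedMonoid G' → M) = 0 := by
      funext θ
      rw [Finset.sum_apply]
      simpa [term, resHom] using hcon θ
    have := Fintype.linearIndependent_iff.mp hli (fun q => D.eps hii q.out) h0
      (QuotientGroup.mk (1 : G))
    exact D.eps_ne_zero hp hf0 hlcf hii _ this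
  obtain ⟨θ, hθ⟩ := hex
  refine ⟨_, hθ, fun τ => ?_⟩
  rw [map_sum, Finset.sum_div]
  have h1 : ∀ q : G ⧸ D.stab G', D.act τ (D.term hii (θ : M) q.out) =
      D.term hii (θ : M) ((τ • q).out) / D.eps hii τ := by
    intro q
    rw [D.act_term hp hf0 hlcf hii]
    congr 1
    have hq : τ • q = QuotientGroup.mk (τ * q.out) := by
      conv_lhs => rw [← QuotientGroup.out_eq' q]
      rfl
    obtain ⟨n, hn⟩ := QuotientGroup.mk_out_eq_mul (D.stab G') (τ * q.out)
    rw [hq, hn, D.term_mul_stab hp hf0 hlcf hii G' hG' θ.2 _ n.2]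
  rw [Finset.sum_congr rfl (fun q _ => h1 q)]
  exact Equiv.sum_comp (MulAction.toPerm τ : (G ⧸ D.stab G') ≃ (G ⧸ D.stab G'))
    (fun q' => D.term hii (θ : M) q'.out / D.eps hii τ)

end Hilbert90

end Datum

/-- **C3-DESC** (descent of the Kummer function to the `G`-fixed part of the cover field, and the Kummer
class of the extension). -/
theorem descent (D : Datum M G p) (hp : p.Prime) {f : M} (hfF : f ∈ D.F) (hf0 : f ≠ 0)
    (hlcf : D.lc f = 1)
    (G' : Subgroup G) [G'.FiniteIndex] (hG' : ∀ ρ ∈ G', D.act ρ f = f)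
    (hii : ∀ τ : G, ∃ (j : ℕ) (k c : M), k ∈ D.F ∧ k ≠ 0 ∧ c ∈ D.L ∧ c ≠ 0 ∧
        D.act τ f = c * f * D.f0 ^ j * k ^ p) :
    ∃ g β h : M, g ≠ 0 ∧ β ≠ 0 ∧ h ≠ 0 ∧ β ∈ D.L ∧
      (∀ τ, D.act τ (f * g ^ p) = f * g ^ p) ∧ (∀ τ, D.act τ h = h) ∧
      (∀ τ, D.act τ (β ^ p) = β ^ p) ∧
      D.σ (f * g ^ p) = β ^ p * h ^ p * (f * g ^ p) ∧
      ∀ τ (j : ℕ) (k c : M), k ∈ D.F → k ≠ 0 → c ∈ D.L → c ≠ 0 →
        D.act τ f = c * f * D.f0 ^ j * k ^ p → D.act τ β * D.ζ ^ j = β := by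
  obtain ⟨g, hg0, hg⟩ := D.exists_coboundary hp hf0 hlcf hii G' hG'
  have hε0 := D.eps_ne_zero hp hf0 hlcf hii
  have hζ0 : D.ζ ≠ 0 := D.zeta_ne_zero hp
  -- the invariant Kummer function
  have hft : ∀ τ, D.act τ (f * g ^ p) = f * g ^ p := by
    intro τ
    rw [map_mul, map_pow, hg τ, div_pow]
    have h1 : D.act τ f = f * D.eps hii τ ^ p := by
      rw [D.eps_pow hp hf0 hlcf hii τ, mul_div_cancel₀ _ hf0]
    rw [h1]
    have := hε0 τ
    field_simp
  -- the multiplier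
  set m : M := D.σ g / g with hm
  have hσg0 : D.σ g ≠ 0 := (map_ne_zero _).mpr hg0
  have hm0 : m ≠ 0 := div_ne_zero hσg0 hg0
  have hmp : D.σ (f * g ^ p) = m ^ p * (f * g ^ p) := by
    rw [map_mul, map_pow, D.σ_F f hfF, hm, div_pow]
    field_simp
  -- transformation of `m`
  have hm_act : ∀ τ (j : ℕ) (k c : M), k ∈ D.F → k ≠ 0 → c ∈ D.L → c ≠ 0 →
      D.act τ f = c * f * D.f0 ^ j * k ^ p → D.act τ m * D.ζ ^ j = m := by
    intro τ j k c hkF hk hc _ h
    have he : D.eps hii τ = D.epsOf j k := D.eps_eq_epsOf hp hf0 hlcf hii hk hc h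
    have hσe : D.σ (D.eps hii τ) = D.ζ ^ j * D.eps hii τ := by
      rw [he]
      unfold Datum.epsOf
      have hk1 : k / D.lc k ∈ D.F := D.F.div_mem hkF (D.hLF (D.lc_mem k))
      rw [map_mul, map_pow, D.σ_z, D.σ_F _ hk1, mul_pow, mul_assoc]
    have h1 : D.act τ m = D.σ (g / D.eps hii τ) / (g / D.eps hii τ) := by
      rw [hm, map_div₀, ← D.σ_act, hg τ]
    rw [h1, map_div₀, hσe, hm]
    have := hε0 τ
    field_simp
  set β : M := D.lc m with hβ
  have hβ0 : β ≠ 0 := D.lc_ne_zero hm0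
  have hβ_act : ∀ τ (j : ℕ) (k c : M), k ∈ D.F → k ≠ 0 → c ∈ D.L → c ≠ 0 →
      D.act τ f = c * f * D.f0 ^ j * k ^ p → D.act τ β * D.ζ ^ j = β := by
    intro τ j k c hkF hk hc hc0 h
    have := congrArg D.lc (hm_act τ j k c hkF hk hc hc0 h)
    rw [map_mul, D.act_lc, D.lc_zeta_pow] at this
    exact this
  refine ⟨g, β, m / β, hg0, hβ0, div_ne_zero hm0 hβ0, D.lc_mem m, hft, ?_, ?_, ?_, hβ_act⟩
  · intro τ
    obtain ⟨j, k, c, hkF, hk, hc, hc0, h⟩ := hii τ
    have h1 := hm_act τ j k c hkF hk hc hc0 h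
    have h2 := hβ_act τ j k c hkF hk hc hc0 h
    have hζj : D.ζ ^ j ≠ 0 := pow_ne_zero _ hζ0
    have h3 : D.act τ m = m / D.ζ ^ j := eq_div_of_mul_eq hζj h1
    have h4 : D.act τ β = β / D.ζ ^ j := eq_div_of_mul_eq hζj h2
    rw [map_div₀, h3, h4]
    field_simp
  · intro τ
    obtain ⟨j, k, c, hkF, hk, hc, hc0, h⟩ := hii τ
    have h2 := hβ_act τ j k c hkF hk hc hc0 h
    have hζj : D.ζ ^ j ≠ 0 := pow_ne_zero _ hζ0
    have h4 : D.act τ β = β / D.ζ ^ j := eq_div_of_mul_eq hζj h2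
    rw [map_pow, h4, div_pow, ← pow_mul, mul_comm j p, pow_mul, D.hζ.pow_eq_one, one_pow, div_one]
  · rw [hmp, ← mul_pow, mul_div_cancel₀ _ hβ0]

end Fermat.Agent.S40x.R2.Desc

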